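import Fermat.Agent.CFT.Br.Defs
import Fermat.Agent.CFT.Coh.CyclicKer

/-! # CFT / Br: adapters from `CFT/Coh/*` (helper67, helper66) to the `Br` definitions.
`Br.cyc = CFT.cyc`, hence BR-NORM and BR-SPLIT in the exact `Br` shape (names `Adapter.*`). -/

set_option autoImplicit false

namespace Fermat.Agent.CFT.Br.Adapter

open Fermat.Agent.CFT

variable {k : Type} [CommRing k] {G : Type} [Group G] {V : Type} [AddCommGroup V] [Module k V]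
  {𝒰 : Levels G} {ρ : Representation k G V} {N : ℕ} [NeZero N]

theorem carry_eq (χ : G →* Multiplicative (ZMod N)) (g h : G) :
    Br.carry (χ g).toAdd (χ h).toAdd = Fermat.Agent.CFT.carry χ g h := by
  have h1 := chiVal_add χ g h
  have h2 : ((χ g).toAdd + (χ h).toAdd).val = chiVal χ (g * h) := by
    rw [chiVal, map_mul, toAdd_mul]
  rw [Br.carry, h2]
  change (chiVal χ g + chiVal χ h - chiVal χ (g * h)) / N = _
  rw [h1, Nat.add_sub_cancel_left, Nat.mul_div_cancel_left _ (Nat.pos_of_ne_zero (NeZero.ne N))]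

theorem cyc_eq (χ : G →* Multiplicative (ZMod N)) (y : V) :
    Br.cyc χ y = Fermat.Agent.CFT.cyc χ y := by
  funext ⟨g, h⟩
  change Br.carry (χ g).toAdd (χ h).toAdd • y = Fermat.Agent.CFT.carry χ g h • y
  rw [carry_eq]

theorem isSmoothChar_iff (χ : G →* Multiplicative (ZMod N)) :
    IsSmoothChar 𝒰 χ ↔ ∃ U ∈ 𝒰.carrier, U ≤ χ.ker := Iff.rfl

theorem cyc_mem_Z2 {χ : G →* Multiplicative (ZMod N)} (hχ : IsSmoothChar 𝒰 χ) {y : V}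
    (hy : ∀ g, ρ g y = y) : Br.cyc χ y ∈ Z2 𝒰 ρ := by
  rw [cyc_eq]
  exact Fermat.Agent.CFT.cyc_mem_Z2 χ hχ hy

theorem cyc_mem_B2_of_norm {χ : G →* Multiplicative (ZMod N)} (hχ : IsSmoothChar 𝒰 χ)
    {σ : G} (hσ : χ σ = Multiplicative.ofAdd 1) {z : V} (hz : ∀ s ∈ χ.ker, ρ s z = z) :
    Br.cyc χ (∑ i ∈ Finset.range N, ρ (σ ^ i) z) ∈ B2 𝒰 ρ := by
  rw [cyc_eq]
  exact Fermat.Agent.CFT.cyc_mem_B2_of_norm hσ hχ hz

theorem exists_norm_of_cyc_mem_B2 {χ : G →* Multiplicative (ZMod N)}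
    {σ : G} (hσ : χ σ = Multiplicative.ofAdd 1)
    (hH1 : Z1 (subLev 𝒰 χ.ker) (Br.resRep χ.ker ρ) ≤ B1 (Br.resRep χ.ker ρ))
    {y : V} (hy : ∀ g, ρ g y = y) (h : Br.cyc χ y ∈ B2 𝒰 ρ) :
    ∃ z : V, (∀ s ∈ χ.ker, ρ s z = z) ∧ y = ∑ i ∈ Finset.range N, ρ (σ ^ i) z := by
  rw [cyc_eq] at h
  exact Fermat.Agent.CFT.exists_norm_of_cyc_mem_B2 hσ hH1 hy h

theorem exists_cyc_of_res_mem_B2 (hρ : IsSmooth 𝒰 ρ) {χ : G →* Multiplicative (ZMod N)}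
    (hχ : IsSmoothChar 𝒰 χ) {σ : G} (hσ : χ σ = Multiplicative.ofAdd 1)
    (hH1 : Z1 (subLev 𝒰 χ.ker) (Br.resRep χ.ker ρ) ≤ B1 (Br.resRep χ.ker ρ))
    {c : G × G → V} (hc : c ∈ Z2 𝒰 ρ)
    (hres : res2 χ.ker c ∈ B2 (subLev 𝒰 χ.ker) (Br.resRep χ.ker ρ)) :
    ∃ y : V, (∀ g, ρ g y = y) ∧ c - Br.cyc χ y ∈ B2 𝒰 ρ := by
  obtain ⟨y, hy, h⟩ := Fermat.Agent.CFT.exists_cyc_of_res_mem_B2 hσ hχ hρ hH1 hc hres
  exact ⟨y, hy, by rw [cyc_eq]; exact h⟩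

end Fermat.Agent.CFT.Br.Adapter
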