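import Fermat.Agent.CFT.Br.Defs

/-!
# WP BR-COR : `[G:H] · ker (res : H^2(G,V) → H^2(H,V)) = 0`   (no corestriction needed).

`H ≤ G` open, `c ∈ Z^2(G,V)`, `c|H = d a₀`.
1. Extend `a₀` to a level-constant `a₁ : G → V` (e.g. `0` outside `H`; level-constant because `H`
   is open) and replace `c` by `c - d a₁`: now `c|H×H = 0`.
2. Choose representatives `t` of `G/H` (`t = 1` on the trivial coset), put `a (t h) = c (t, h)`.
   The cocycle identity at `(t,h,h')` gives `(c + d a)(g, h') = 0` for all `g ∈ G`, `h' ∈ H`.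
   Replace `c` by `c' = c + d a`.
3. The cocycle identity at `(g,x,h')` gives `c'(g, x h') = c'(g,x)`: `c'(g, ·)` is a function on `G/H`.
   Put `b g = ∑_{x ∈ G/H} c'(g,x)`.  Summing the cocycle identity at `(g,h,x)` over `x ∈ G/H`:
   `g b(h) - b(g h) + b(g) - [G:H] c'(g,h) = 0`.
Also the degree 1 analogue (easy) and the corollary for classes killed by `p`.
-/

set_option autoImplicit false

namespace Fermat.Agent.CFT.Br

open Fermat.Agent.CFT

variable {k : Type} [CommRing k] {G : Type} [Group G] {V : Type} [AddCommGroup V] [Module k V]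
  {𝒰 : Levels G} {ρ : Representation k G V}

lemma IsOpenSub.finiteIndex {H : Subgroup G} (hH : IsOpenSub 𝒰 H) : H.FiniteIndex := by
  obtain ⟨U, hU, hUH⟩ := hH
  have := 𝒰.finiteIndex U hU
  exact Subgroup.finiteIndex_of_le hUH

namespace Cor

/-- the cocycle identity, pointwise -/
lemma coc2 {c : G × G → V} (hc : d23 ρ c = 0) (g₁ g₂ g₃ : G) :
    ρ g₁ (c (g₂, g₃)) - c (g₁ * g₂, g₃) + c (g₁, g₂ * g₃) - c (g₁, g₂) = 0 :=
  congrFun hc (g₁, g₂, g₃)

/-- the cocycle identity in degree one, pointwise -/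
lemma coc1 {a : G → V} (ha : d12 ρ a = 0) (g₁ g₂ : G) :
    a (g₁ * g₂) = ρ g₁ (a g₂) + a g₁ := by
  have := congrFun ha (g₁, g₂)
  simp only [d12_apply, Pi.zero_apply] at this
  rw [sub_add_eq_add_sub, sub_eq_zero] at this
  exact this.symm

/-- extension by zero of a level-constant cochain on an open subgroup -/
lemma exists_extend_C1 {H : Subgroup G} (hH : IsOpenSub 𝒰 H) {a₀ : ↥H → V}
    (ha₀ : a₀ ∈ C1 k V (subLev 𝒰 H)) : ∃ a₁ ∈ C1 k V 𝒰, res1 H a₁ = a₀ := by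
  classical
  obtain ⟨U₀, hU₀, hU₀H⟩ := hH
  obtain ⟨_, ⟨U₁, hU₁, rfl⟩, ha⟩ := ha₀
  obtain ⟨U, hU, h0, h1⟩ := 𝒰.directed U₀ hU₀ U₁ hU₁
  refine ⟨fun g => if h : g ∈ H then a₀ ⟨g, h⟩ else 0, ⟨U, hU, fun g s hs => ?_⟩, ?_⟩
  · have hsH : s ∈ H := hU₀H (h0 hs)
    by_cases hg : g ∈ H
    · have hgs : g * s ∈ H := H.mul_mem hg hsH
      simp only [dif_pos hg, dif_pos hgs]
      exact ha ⟨g, hg⟩ ⟨s, hsH⟩ (h1 hs)
    · have hgs : g * s ∉ H := fun h => hg ((H.mul_mem_cancel_right hsH).1 h)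
      simp only [dif_neg hg, dif_neg hgs]
  · funext h
    simp

/-- `g = out (gH) * hpart g` -/
noncomputable def tpart (H : Subgroup G) (g : G) : G := (Quotient.out (g : G ⧸ H))

noncomputable def hpart (H : Subgroup G) (g : G) : G := (tpart H g)⁻¹ * g

lemma tpart_mul_hpart (H : Subgroup G) (g : G) : tpart H g * hpart H g = g := by
  simp [hpart]

lemma hpart_mem (H : Subgroup G) (g : G) : hpart H g ∈ H := by
  unfold hpart tpart
  rw [← QuotientGroup.eq]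
  exact Quotient.out_eq' _

lemma tpart_mul_right (H : Subgroup G) (g : G) {s : G} (hs : s ∈ H) :
    tpart H (g * s) = tpart H g := by
  unfold tpart
  congr 1
  exact (QuotientGroup.mk_mul_of_mem g hs)

lemma hpart_mul_right (H : Subgroup G) (g : G) {s : G} (hs : s ∈ H) :
    hpart H (g * s) = hpart H g * s := by
  unfold hpart
  rw [tpart_mul_right H g hs, mul_assoc]

lemma tpart_mem {H : Subgroup G} {g : G} (hg : g ∈ H) : tpart H g ∈ H := by
  have h1 := tpart_mul_hpart H g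
  have h2 := hpart_mem H g
  have : tpart H g = g * (hpart H g)⁻¹ := eq_mul_inv_of_mul_eq h1
  rw [this]
  exact H.mul_mem hg (H.inv_mem h2)

/-- step 2 -/
lemma exists_vanish_right {H : Subgroup G} (hH : IsOpenSub 𝒰 H) {c : G × G → V}
    (hc : c ∈ Z2 𝒰 ρ) (h0 : ∀ h h' : G, h ∈ H → h' ∈ H → c (h, h') = 0) :
    ∃ a ∈ C1 k V 𝒰, ∀ g h' : G, h' ∈ H → (c + d12 ρ a) (g, h') = 0 := by
  obtain ⟨U₀, hU₀, hU₀H⟩ := hH
  obtain ⟨hcz, U₁, hU₁, hcl⟩ := hc
  have hcz : d23 ρ c = 0 := hcz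
  obtain ⟨U, hU, hUU₀, hUU₁⟩ := 𝒰.directed U₀ hU₀ U₁ hU₁
  refine ⟨fun g => c (tpart H g, hpart H g), ⟨U, hU, fun g s hs => ?_⟩, fun g h' hh' => ?_⟩
  · have hsH : s ∈ H := hU₀H (hUU₀ hs)
    show c (tpart H (g * s), hpart H (g * s)) = c (tpart H g, hpart H g)
    rw [tpart_mul_right H g hsH, hpart_mul_right H g hsH]
    have := hcl (tpart H g) (hpart H g) 1 s (one_mem _) (hUU₁ hs)
    rwa [mul_one] at this
  · simp only [Pi.add_apply, d12_apply]
    rw [tpart_mul_right H g hh', hpart_mul_right H g hh',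
      h0 (tpart H h') (hpart H h') (tpart_mem hh') (hpart_mem H h'), map_zero]
    have h1 := coc2 hcz (tpart H g) (hpart H g) h'
    rw [h0 _ _ (hpart_mem H g) hh', map_zero, tpart_mul_hpart] at h1
    have h2 : c (g, h') = c (tpart H g, hpart H g * h') - c (tpart H g, hpart H g) := by
      have : c (tpart H g, hpart H g * h') - c (tpart H g, hpart H g) - c (g, h') = 0 := by
        rw [← h1]; abel
      exact (sub_eq_zero.1 this).symm
    rw [h2]
    abel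


/-- a right `H`-invariant function evaluated at `out`. -/
lemma apply_out_mk {X : Type*} {H : Subgroup G} {f : G → X}
    (hf : ∀ x h' : G, h' ∈ H → f (x * h') = f x) (x : G) :
    f (Quotient.out (x : G ⧸ H)) = f x := by
  obtain ⟨h, hh⟩ := QuotientGroup.mk_out_eq_mul H x
  rw [hh, hf x h h.2]

/-- summation over `G/H` is invariant under left translation. -/
lemma sum_out_translate {H : Subgroup G} [Fintype (G ⧸ H)] {f : G → V}
    (hf : ∀ x h' : G, h' ∈ H → f (x * h') = f x) (g : G) :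
    ∑ ξ : G ⧸ H, f (g * Quotient.out ξ) = ∑ ξ : G ⧸ H, f (Quotient.out ξ) := by
  rw [← Equiv.sum_comp (MulAction.toPerm g : Equiv.Perm (G ⧸ H))
    (fun ξ : G ⧸ H => f (Quotient.out ξ))]
  refine Finset.sum_congr rfl fun ξ _ => ?_
  have h1 : (MulAction.toPerm g : Equiv.Perm (G ⧸ H)) ξ = ((g * Quotient.out ξ : G) : G ⧸ H) := by
    conv_lhs => rw [← Quotient.out_eq' ξ]
    rfl
  rw [h1, apply_out_mk hf]

lemma card_quot_eq_index (H : Subgroup G) [Fintype (G ⧸ H)] :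
    (Finset.univ : Finset (G ⧸ H)).card = H.index := by
  rw [Finset.card_univ, Subgroup.index_eq_card, Nat.card_eq_fintype_card]

/-- step 3 -/
lemma exists_d12_eq_index_smul {H : Subgroup G} (hH : IsOpenSub 𝒰 H) {c : G × G → V}
    (hc : c ∈ Z2 𝒰 ρ) (h0 : ∀ g h' : G, h' ∈ H → c (g, h') = 0) :
    ∃ b ∈ C1 k V 𝒰, d12 ρ b = H.index • c := by
  classical
  have := hH.finiteIndex
  let _ : Fintype (G ⧸ H) := Fintype.ofFinite _
  obtain ⟨hcz, U₁, hU₁, hcl⟩ := hc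
  have hcz : d23 ρ c = 0 := hcz
  have hinv : ∀ g x h' : G, h' ∈ H → c (g, x * h') = c (g, x) := by
    intro g x h' hh'
    have h1 := coc2 hcz g x h'
    rw [h0 x h' hh', h0 (g * x) h' hh', map_zero, sub_zero, zero_add, sub_eq_zero] at h1
    exact h1
  refine ⟨fun g => ∑ ξ : G ⧸ H, c (g, Quotient.out ξ), ⟨U₁, hU₁, fun g s hs => ?_⟩, ?_⟩
  · refine Finset.sum_congr rfl fun ξ _ => ?_
    have := hcl g (Quotient.out ξ) s 1 hs (one_mem _)
    rwa [mul_one] at this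
  · funext ⟨g, h⟩
    simp only [d12_apply, Pi.smul_apply, map_sum]
    rw [← sum_out_translate (H := H) (f := fun x => c (g, x)) (hinv g) h,
      ← Finset.sum_sub_distrib, ← Finset.sum_add_distrib, ← card_quot_eq_index H,
      ← Finset.sum_const]
    refine Finset.sum_congr rfl fun ξ _ => ?_
    have h1 := coc2 hcz g h (Quotient.out ξ)
    exact sub_eq_zero.1 h1

end Cor

theorem index_smul_mem_B2 (hρ : IsSmooth 𝒰 ρ) {H : Subgroup G} (hH : IsOpenSub 𝒰 H)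
    {c : G × G → V} (hc : c ∈ Z2 𝒰 ρ)
    (hres : res2 H c ∈ B2 (subLev 𝒰 H) (resRep H ρ)) : H.index • c ∈ B2 𝒰 ρ := by
  obtain ⟨a₀, ha₀, ha₀c⟩ := hres
  obtain ⟨a₁, ha₁, rfl⟩ := Cor.exists_extend_C1 hH ha₀
  have hB₁ : d12 ρ a₁ ∈ B2 𝒰 ρ := ⟨a₁, ha₁, rfl⟩
  have hc₁ : c - d12 ρ a₁ ∈ Z2 𝒰 ρ := sub_mem hc (B2_le_Z2 hρ hB₁)
  have h0 : ∀ h h' : G, h ∈ H → h' ∈ H → (c - d12 ρ a₁) (h, h') = 0 := by
    intro h h' hh hh'
    have := congrFun ha₀c (⟨h, hh⟩, ⟨h', hh'⟩)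
    rw [Pi.sub_apply, sub_eq_zero]
    exact this.symm
  obtain ⟨a, ha, hac⟩ := Cor.exists_vanish_right hH hc₁ h0
  have hB₂ : d12 ρ a ∈ B2 𝒰 ρ := ⟨a, ha, rfl⟩
  have hc₂ : c - d12 ρ a₁ + d12 ρ a ∈ Z2 𝒰 ρ := add_mem hc₁ (B2_le_Z2 hρ hB₂)
  obtain ⟨b, hb, hbc⟩ := Cor.exists_d12_eq_index_smul hH hc₂ hac
  have hB₃ : H.index • (c - d12 ρ a₁ + d12 ρ a) ∈ B2 𝒰 ρ := hbc ▸ ⟨b, hb, rfl⟩
  have : H.index • c = H.index • (c - d12 ρ a₁ + d12 ρ a) + H.index • d12 ρ a₁ -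
      H.index • d12 ρ a := by
    rw [← smul_add, ← smul_sub]
    congr 1
    abel
  rw [this]
  exact sub_mem (add_mem hB₃ (nsmul_mem hB₁ _)) (nsmul_mem hB₂ _)

theorem index_smul_mem_B1 {H : Subgroup G} (hH : IsOpenSub 𝒰 H)
    {a : G → V} (ha : a ∈ Z1 𝒰 ρ) (hres : res1 H a ∈ B1 (resRep H ρ)) :
    H.index • a ∈ B1 ρ := by
  classical
  have := hH.finiteIndex
  let _ : Fintype (G ⧸ H) := Fintype.ofFinite _
  obtain ⟨v, hv⟩ := hres
  have haz : d12 ρ a = 0 := ha.1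
  set a' : G → V := a - d01 ρ v with ha'
  have ha'z : d12 ρ a' = 0 := by rw [ha', map_sub, haz, d12_d01, sub_zero]
  have h0 : ∀ h : G, h ∈ H → a' h = 0 := by
    intro h hh
    have := congrFun hv ⟨h, hh⟩
    rw [ha', Pi.sub_apply, sub_eq_zero]
    exact this.symm
  have hinv : ∀ x h' : G, h' ∈ H → a' (x * h') = a' x := by
    intro x h' hh'
    rw [Cor.coc1 ha'z, h0 h' hh', map_zero, zero_add]
  set w : V := ∑ ξ : G ⧸ H, a' (Quotient.out ξ) with hw
  have key : ∀ g : G, H.index • a' g = w - ρ g w := by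
    intro g
    have h1 := Cor.sum_out_translate (H := H) hinv g
    simp only [Cor.coc1 ha'z g] at h1
    rw [Finset.sum_add_distrib, Finset.sum_const, Cor.card_quot_eq_index, ← map_sum, ← hw] at h1
    exact eq_sub_of_add_eq' h1
  refine ⟨-w + H.index • v, ?_⟩
  funext g
  have h2 : a g = a' g + d01 ρ v g := by rw [ha']; simp
  rw [Pi.smul_apply, h2, smul_add, key g]
  simp only [d01_apply, map_add, map_neg, map_nsmul, smul_sub]
  abel

/-- restriction to a subgroup of index prime to `p` is injective on classes killed by `p^n` -/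
theorem mem_B2_of_res_of_coprime (hρ : IsSmooth 𝒰 ρ) {H : Subgroup G} (hH : IsOpenSub 𝒰 H)
    {m : ℕ} (hm : Nat.Coprime m H.index) {c : G × G → V} (hc : c ∈ Z2 𝒰 ρ)
    (hmc : m • c ∈ B2 𝒰 ρ)
    (hres : res2 H c ∈ B2 (subLev 𝒰 H) (resRep H ρ)) : c ∈ B2 𝒰 ρ := by
  have h1 := index_smul_mem_B2 hρ hH hc hres
  have h2 : (m : ℤ) * Nat.gcdA m H.index + (H.index : ℤ) * Nat.gcdB m H.index = 1 := by
    rw [← Nat.gcd_eq_gcd_ab, hm.gcd_eq_one, Nat.cast_one]
  have h3 : c = Nat.gcdA m H.index • (m • c) + Nat.gcdB m H.index • (H.index • c) := by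
    rw [← natCast_zsmul c m, ← natCast_zsmul c H.index, smul_smul, smul_smul, ← add_smul,
      mul_comm _ (m : ℤ), mul_comm _ (H.index : ℤ), h2, one_smul]
  rw [h3]
  exact add_mem (zsmul_mem hmc _) (zsmul_mem h1 _)

/-- every class dies on a level -/
theorem exists_level_res_mem_B2 {c : G × G → V} (hc : c ∈ Z2 𝒰 ρ) :
    ∃ U ∈ 𝒰.carrier, res2 U c ∈ B2 (subLev 𝒰 U) (resRep U ρ) := by
  obtain ⟨hcz, U, hU, hcl⟩ := hc
  have hcz : d23 ρ c = 0 := hcz
  have hconst : ∀ s₁ s₂ : G, s₁ ∈ U → s₂ ∈ U → c (s₁, s₂) = c (1, 1) := by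
    intro s₁ s₂ h₁ h₂
    have := hcl 1 1 s₁ s₂ h₁ h₂
    rwa [one_mul, one_mul] at this
  have hfix : ∀ s : G, s ∈ U → ρ s (c (1, 1)) = c (1, 1) := by
    intro s hs
    have h1 := Cor.coc2 hcz s 1 1
    rw [mul_one, mul_one, hconst s 1 hs (one_mem _)] at h1
    have : ρ s (c (1, 1)) - c (1, 1) = 0 := by rw [← h1]; abel
    exact sub_eq_zero.1 this
  refine ⟨U, hU, fun _ => c (1, 1), (subLev 𝒰 U).LC1_const _, ?_⟩
  funext ⟨s₁, s₂⟩
  simp only [d12_apply]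
  show ρ s₁ (c (1, 1)) - c (1, 1) + c (1, 1) = c ((s₁ : G), (s₂ : G))
  rw [hfix s₁ s₁.2, hconst s₁ s₂ s₁.2 s₂.2]
  abel

end Fermat.Agent.CFT.Br
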