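import Fermat.Agent.CFT.Br.Defs

/-!
# WP BR-CYC : formal properties of the cyclic cocycles `cyc χ y`.

Write `[a] = a.val`.  `[a] + [b] = [a+b] + N * carry a b`, `carry ∈ {0,1}`.
All statements are elementary identities between carries:
* cocycle: `carry b c + carry a (b+c) = carry (a+b) c + carry a b`
* `cyc (χ χ') y - cyc χ y - cyc χ' y = - d (g ↦ carry (χ g) (χ' g) • y)`
* `N • cyc χ y = d (g ↦ [χ g] • y)`
* projection `ZMod (d*N') → ZMod N'`: `[x]_N = [x̄]_{N'} + N' t(x)`, whence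
  `cyc χ (d • y) - cyc χ' y = d (g ↦ t (χ g) • y)`.
-/

set_option autoImplicit false
set_option linter.unusedSectionVars false

namespace Fermat.Agent.CFT.Br

open Fermat.Agent.CFT

lemma carry_eq_div {N : ℕ} [NeZero N] (a b : ZMod N) : carry a b = (a.val + b.val) / N := by
  have hN : 0 < N := Nat.pos_of_ne_zero (NeZero.ne N)
  unfold carry
  rw [ZMod.val_add]
  have h := Nat.mod_add_div (a.val + b.val) N
  have h2 : a.val + b.val - (a.val + b.val) % N = N * ((a.val + b.val) / N) := by omega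
  rw [h2, Nat.mul_div_cancel_left _ hN]

lemma val_add_val {N : ℕ} [NeZero N] (a b : ZMod N) :
    a.val + b.val = (a + b).val + N * carry a b := by
  rw [carry_eq_div, ZMod.val_add]
  exact (Nat.mod_add_div _ _).symm

lemma carry_le_one {N : ℕ} [NeZero N] (a b : ZMod N) : carry a b ≤ 1 := by
  rw [carry_eq_div]
  have h1 := ZMod.val_lt a
  have h2 := ZMod.val_lt b
  have : (a.val + b.val) / N < 2 := Nat.div_lt_of_lt_mul (by omega)
  omega

lemma carry_zero_left {N : ℕ} [NeZero N] (b : ZMod N) : carry 0 b = 0 := by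
  rw [carry_eq_div, ZMod.val_zero, zero_add]
  exact Nat.div_eq_of_lt (ZMod.val_lt b)

lemma carry_zero_right {N : ℕ} [NeZero N] (a : ZMod N) : carry a 0 = 0 := by
  rw [carry_eq_div, ZMod.val_zero, add_zero]
  exact Nat.div_eq_of_lt (ZMod.val_lt a)

lemma carry_assoc {N : ℕ} [NeZero N] (a b c : ZMod N) :
    carry b c + carry a (b + c) = carry (a + b) c + carry a b := by
  have hN : 0 < N := Nat.pos_of_ne_zero (NeZero.ne N)
  have h1 := val_add_val b c
  have h2 := val_add_val a (b + c)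
  have h3 := val_add_val a b
  have h4 := val_add_val (a + b) c
  rw [← add_assoc] at h2
  apply Nat.eq_of_mul_eq_mul_left hN
  rw [Nat.mul_add, Nat.mul_add]
  omega

variable {k : Type} [CommRing k] {G : Type} [Group G] {V : Type} [AddCommGroup V] [Module k V]
  {𝒰 : Levels G} {ρ : Representation k G V} {N : ℕ} [NeZero N]

lemma cyc_apply {N : ℕ} (χ : G →* Multiplicative (ZMod N)) (y : V) (g : G × G) :
    cyc χ y g = carry (χ g.1).toAdd (χ g.2).toAdd • y := rfl

lemma cyc_add (χ : G →* Multiplicative (ZMod N)) (y y' : V) :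
    cyc χ (y + y') = cyc χ y + cyc χ y' := by
  ext g
  simp [cyc_apply, smul_add]

lemma cyc_nsmul (χ : G →* Multiplicative (ZMod N)) (n : ℕ) (y : V) :
    cyc χ (n • y) = n • cyc χ y := by
  ext g
  simp only [cyc_apply, Pi.smul_apply]
  exact smul_comm _ _ _

lemma cyc_neg (χ : G →* Multiplicative (ZMod N)) (y : V) : cyc χ (-y) = -cyc χ y := by
  ext g
  simp [cyc_apply]

lemma cyc_zero (χ : G →* Multiplicative (ZMod N)) : cyc χ (0 : V) = 0 := by
  ext g
  simp [cyc_apply]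

lemma IsSmoothChar.apply_mul {χ : G →* Multiplicative (ZMod N)} {U : Subgroup G}
    (h : ∀ s ∈ U, χ s = 1) (g s : G) (hs : s ∈ U) : χ (g * s) = χ g := by
  rw [map_mul, h s hs, mul_one]

lemma cyc_mem_C2 {χ : G →* Multiplicative (ZMod N)} (hχ : IsSmoothChar 𝒰 χ) (y : V) :
    cyc χ y ∈ C2 k V 𝒰 := by
  obtain ⟨U, hU, h⟩ := hχ
  refine ⟨U, hU, fun g₁ g₂ s₁ s₂ h₁ h₂ => ?_⟩
  simp only [cyc_apply, IsSmoothChar.apply_mul h _ _ h₁, IsSmoothChar.apply_mul h _ _ h₂]

/-- a function of `χ g` is a level-constant cochain -/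
lemma comp_char_mem_C1 {χ : G →* Multiplicative (ZMod N)} (hχ : IsSmoothChar 𝒰 χ)
    (F : Multiplicative (ZMod N) → V) : (fun g => F (χ g)) ∈ C1 k V 𝒰 := by
  obtain ⟨U, hU, h⟩ := hχ
  exact ⟨U, hU, fun g s hs => by simp only [IsSmoothChar.apply_mul h _ _ hs]⟩

theorem cyc_mem_Z2 {χ : G →* Multiplicative (ZMod N)} (hχ : IsSmoothChar 𝒰 χ) {y : V}
    (hy : ∀ g, ρ g y = y) : cyc χ y ∈ Z2 𝒰 ρ := by
  refine ⟨LinearMap.mem_ker.mpr ?_, cyc_mem_C2 hχ y⟩
  ext ⟨g, h, j⟩
  simp only [d23_apply, cyc_apply, map_nsmul, hy, map_mul, toAdd_mul, Pi.zero_apply]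
  have key := congrArg (fun n : ℕ => n • y)
    (carry_assoc (χ g).toAdd (χ h).toAdd (χ j).toAdd)
  simp only [add_smul] at key
  rw [sub_add_eq_add_sub, sub_sub, key, sub_self]

/-- `d` of a cochain `g ↦ t g • y` with `y` invariant -/
lemma d12_nsmul_apply {y : V} (hy : ∀ g, ρ g y = y) (t : G → ℕ) (g : G × G) :
    d12 ρ (fun x => t x • y) g = t g.2 • y - t (g.1 * g.2) • y + t g.1 • y := by
  simp only [d12_apply, map_nsmul, hy]

/-- additivity in the character, up to a coboundary -/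
theorem cyc_mul_char {χ χ' : G →* Multiplicative (ZMod N)} (hχ : IsSmoothChar 𝒰 χ)
    (hχ' : IsSmoothChar 𝒰 χ') {y : V} (hy : ∀ g, ρ g y = y) :
    cyc (χ * χ') y - cyc χ y - cyc χ' y ∈ B2 𝒰 ρ := by
  have hN : 0 < N := Nat.pos_of_ne_zero (NeZero.ne N)
  have hC : (fun g => carry (χ g).toAdd (χ' g).toAdd • y) ∈ C1 k V 𝒰 := by
    obtain ⟨U, hU, h⟩ := hχ
    obtain ⟨U', hU', h'⟩ := hχ'
    obtain ⟨W, hW, h1, h2⟩ := 𝒰.directed U hU U' hU'
    exact ⟨W, hW, fun g s hs => by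
      simp only [IsSmoothChar.apply_mul h _ _ (h1 hs), IsSmoothChar.apply_mul h' _ _ (h2 hs)]⟩
  refine ⟨-(fun g => carry (χ g).toAdd (χ' g).toAdd • y), neg_mem hC, ?_⟩
  rw [map_neg]
  ext ⟨g, h⟩
  simp only [Pi.neg_apply, Pi.sub_apply, d12_nsmul_apply hy, cyc_apply, MonoidHom.mul_apply,
    map_mul, toAdd_mul]
  set a := (χ g).toAdd
  set a' := (χ' g).toAdd
  set b := (χ h).toAdd
  set b' := (χ' h).toAdd
  have key : carry (a + a') (b + b') + carry a a' + carry b b'
      = carry a b + carry a' b' + carry (a + b) (a' + b') := by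
    have e1 := val_add_val a a'
    have e2 := val_add_val b b'
    have e3 := val_add_val (a + b) (a' + b')
    have e4 := val_add_val (a + a') (b + b')
    have e5 := val_add_val a b
    have e6 := val_add_val a' b'
    have e7 : a + b + (a' + b') = a + a' + (b + b') := by abel
    rw [e7] at e3
    apply Nat.eq_of_mul_eq_mul_left hN
    simp only [Nat.mul_add]
    omega
  have key2 := congrArg (fun n : ℕ => n • y) key
  simp only [add_smul] at key2
  rw [← sub_eq_zero]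
  have : ∀ A B C D E F : V, A + B + C = D + E + F → -(C - F + B) - (A - D - E) = 0 := by
    intro A B C D E F h
    have : A = D + E + F - C - B := by rw [← h]; abel
    rw [this]; abel
  exact this _ _ _ _ _ _ key2

lemma IsSmoothChar.pow {χ : G →* Multiplicative (ZMod N)} (hχ : IsSmoothChar 𝒰 χ) (n : ℕ) :
    IsSmoothChar 𝒰 (χ ^ n) := by
  obtain ⟨U, hU, h⟩ := hχ
  exact ⟨U, hU, fun s hs => by rw [MonoidHom.pow_apply, h s hs, one_pow]⟩

theorem cyc_pow_char {χ : G →* Multiplicative (ZMod N)} (hχ : IsSmoothChar 𝒰 χ) {y : V}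
    (hy : ∀ g, ρ g y = y) (n : ℕ) : cyc (χ ^ n) y - cyc χ (n • y) ∈ B2 𝒰 ρ := by
  induction n with
  | zero =>
    have : cyc (χ ^ 0) y - cyc χ (0 • y) = 0 := by
      ext g
      simp [cyc_apply, carry_zero_left]
    rw [this]
    exact zero_mem _
  | succ n ih =>
    have h1 := cyc_mul_char (ρ := ρ) (hχ.pow n) hχ hy
    have h2 := add_mem h1 ih
    have h3 : cyc (χ ^ n * χ) y - cyc (χ ^ n) y - cyc χ y + (cyc (χ ^ n) y - cyc χ (n • y))
        = cyc (χ ^ (n + 1)) y - cyc χ ((n + 1) • y) := by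
      rw [pow_succ, succ_nsmul, cyc_add]
      abel
    rwa [h3] at h2

/-- `N (χ,y) = 0` -/
theorem nsmul_cyc_mem_B2 {χ : G →* Multiplicative (ZMod N)} (hχ : IsSmoothChar 𝒰 χ) {y : V}
    (hy : ∀ g, ρ g y = y) : cyc χ (N • y) ∈ B2 𝒰 ρ := by
  refine ⟨fun g => (χ g).toAdd.val • y, comp_char_mem_C1 hχ (fun c => c.toAdd.val • y), ?_⟩
  ext ⟨g, h⟩
  simp only [d12_nsmul_apply hy, cyc_apply, map_mul, toAdd_mul]
  have key := congrArg (fun n : ℕ => n • y) (val_add_val (χ g).toAdd (χ h).toAdd)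
  simp only [add_smul, mul_smul] at key
  rw [smul_comm, sub_add_eq_add_sub, add_comm, key]
  abel

/-- restriction to a subgroup -/
lemma res2_cyc (H : Subgroup G) (χ : G →* Multiplicative (ZMod N)) (y : V) :
    res2 H (cyc χ y) = cyc (χ.comp H.subtype) y := rfl

lemma IsSmoothChar.sub {χ : G →* Multiplicative (ZMod N)} (hχ : IsSmoothChar 𝒰 χ)
    (H : Subgroup G) : IsSmoothChar (subLev 𝒰 H) (χ.comp H.subtype) := by
  obtain ⟨U, hU, h⟩ := hχ
  exact ⟨_, ⟨U, hU, rfl⟩, fun s hs => h s hs⟩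

/-- `χ = d χ'` through the embedding `ZMod N' → ZMod (d N')` : same cocycle -/
theorem cyc_eq_of_val_eq_mul {N' d : ℕ} [NeZero N'] (hN : N = d * N')
    (χ : G →* Multiplicative (ZMod N)) (χ' : G →* Multiplicative (ZMod N'))
    (h : ∀ g, (χ g).toAdd.val = d * (χ' g).toAdd.val) (y : V) : cyc χ y = cyc χ' y := by
  have hd : 0 < d := by
    rcases Nat.eq_zero_or_pos d with rfl | hd
    · exact absurd (by simpa using hN) (NeZero.ne N)
    · exact hd
  ext g
  rw [cyc_apply, cyc_apply, carry_eq_div, carry_eq_div, h, h, ← Nat.mul_add]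
  congr 1
  subst hN
  exact Nat.mul_div_mul_left _ _ hd

/-- `χ' = χ mod N'`, `N = d N'` : `(χ', y) = (χ, d y)` -/
theorem cyc_proj {N' d : ℕ} [NeZero N'] (hN : N = d * N')
    {χ : G →* Multiplicative (ZMod N)} (hχ : IsSmoothChar 𝒰 χ)
    (χ' : G →* Multiplicative (ZMod N'))
    (h : ∀ g, (χ' g).toAdd.val = (χ g).toAdd.val % N') {y : V} (hy : ∀ g, ρ g y = y) :
    cyc χ (d • y) - cyc χ' y ∈ B2 𝒰 ρ := by
  have hN' : 0 < N' := Nat.pos_of_ne_zero (NeZero.ne N')
  refine ⟨fun g => ((χ g).toAdd.val / N') • y,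
    comp_char_mem_C1 hχ (fun c => (c.toAdd.val / N') • y), ?_⟩
  ext ⟨g, j⟩
  simp only [d12_nsmul_apply hy, cyc_apply, Pi.sub_apply]
  have key : d * carry (χ g).toAdd (χ j).toAdd + (χ (g * j)).toAdd.val / N'
      = carry (χ' g).toAdd (χ' j).toAdd + (χ g).toAdd.val / N' + (χ j).toAdd.val / N' := by
    have e1 := val_add_val (χ g).toAdd (χ j).toAdd
    have e2 := val_add_val (χ' g).toAdd (χ' j).toAdd
    rw [← toAdd_mul, ← map_mul] at e1 e2
    rw [h g, h j, h (g * j)] at e2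
    have e3 := Nat.mod_add_div (χ g).toAdd.val N'
    have e4 := Nat.mod_add_div (χ j).toAdd.val N'
    have e5 := Nat.mod_add_div (χ (g * j)).toAdd.val N'
    apply Nat.eq_of_mul_eq_mul_left hN'
    have e6 : ∀ c : ℕ, N * c = N' * (d * c) := fun c => by rw [hN]; ring
    rw [e6] at e1
    simp only [Nat.mul_add]
    omega
  have key2 := congrArg (fun n : ℕ => n • y) key
  simp only [add_smul, mul_smul] at key2
  rw [smul_comm]
  have : ∀ A B C D E : V, A + B = C + D + E → E - B + D = A - C := by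
    intro A B C D E h
    have : A = C + D + E - B := by rw [← h]; abel
    rw [this]; abel
  exact this _ _ _ _ _ key2

end Fermat.Agent.CFT.Br
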