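import Fermat.Agent.CFT.F.Basic

/-!
# CFT / layer Br (= helper85's GC0): abstract Galois cohomology in degrees 1, 2.  Definitions.

Everything is stated in helper55's framework (`Levels G`, `Z1 B1 Z2 B2`).
* `subLev 𝒰 H`   : trace of a level structure on an ARBITRARY subgroup `H`
* `IsOpenSub 𝒰 H`: `H` contains a level
* `res1 H a`, `res2 H c` : restriction of cochains to `H`
* `cyc χ y`      : the cyclic class `(χ, y)`; `χ : G →* Multiplicative (ZMod N)`, `y ∈ V^G`
* `IsGalAct 𝒰 Ω` : `G` acts on the field `Ω`, smoothly, and every level `U` is exactly the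
                   stabiliser of `Ω^U`
* `uRep G Ω`     : the representation of `G` on `Additive Ωˣ`
* `muEmb ζ`      : `ZMod p → Additive Ωˣ`, `a ↦ ζ ^ a`
-/

set_option autoImplicit false

namespace Fermat.Agent.CFT.Br

open Fermat.Agent.CFT

section Sub
variable {G : Type} [Group G]

/-- trace of a level structure on an arbitrary subgroup -/
def subLev (𝒰 : Levels G) (H : Subgroup G) : Levels ↥H where
  carrier := {W | ∃ U ∈ 𝒰.carrier, W = U.subgroupOf H}
  normal := by
    rintro W ⟨U, hU, rfl⟩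
    have := 𝒰.normal U hU
    infer_instance
  finiteIndex := by
    rintro W ⟨U, hU, rfl⟩
    have := 𝒰.finiteIndex U hU
    infer_instance
  nonempty := by
    obtain ⟨U, hU⟩ := 𝒰.nonempty
    exact ⟨_, U, hU, rfl⟩
  directed := by
    rintro _ ⟨U, hU, rfl⟩ _ ⟨U', hU', rfl⟩
    obtain ⟨W, hW, h1, h2⟩ := 𝒰.directed U hU U' hU'
    exact ⟨_, ⟨W, hW, rfl⟩, fun x hx => h1 hx, fun x hx => h2 hx⟩

lemma subLev_cont (𝒰 : Levels G) (H : Subgroup G) :
    ∀ U ∈ 𝒰.carrier, ∃ W ∈ (subLev 𝒰 H).carrier, W ≤ U.comap H.subtype :=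
  fun U hU => ⟨_, ⟨U, hU, rfl⟩, le_refl _⟩

/-- `H` is open: it contains a level -/
def IsOpenSub (𝒰 : Levels G) (H : Subgroup G) : Prop := ∃ U ∈ 𝒰.carrier, U ≤ H

/-- restriction of 1-cochains to a subgroup -/
abbrev res1 (H : Subgroup G) {X : Type*} (a : G → X) : ↥H → X := a ∘ H.subtype
/-- restriction of 2-cochains to a subgroup -/
abbrev res2 (H : Subgroup G) {X : Type*} (c : G × G → X) : ↥H × ↥H → X :=
  c ∘ Prod.map H.subtype H.subtype

/-- restriction of a representation to a subgroup -/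
abbrev resRep {k : Type} [CommRing k] {V : Type} [AddCommGroup V] [Module k V]
    (H : Subgroup G) (ρ : Representation k G V) : Representation k ↥H V := ρ.comp H.subtype

end Sub

section Cyc

/-- the carry of the addition of residues: `[a] + [b] = [a+b] + N * carry a b` -/
def carry {N : ℕ} (a b : ZMod N) : ℕ := (a.val + b.val - (a + b).val) / N

variable {G : Type} [Group G] {V : Type} [AddCommGroup V]

/-- the cyclic 2-cocycle `(χ, y)` : `(g,h) ↦ carry (χ g) (χ h) • y` -/
def cyc {N : ℕ} (χ : G →* Multiplicative (ZMod N)) (y : V) : G × G → V :=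
  fun g => carry (χ g.1).toAdd (χ g.2).toAdd • y

/-- `χ` is trivial on a level -/
def IsSmoothChar (𝒰 : Levels G) {N : ℕ} (χ : G →* Multiplicative (ZMod N)) : Prop :=
  ∃ U ∈ 𝒰.carrier, ∀ s ∈ U, χ s = 1

end Cyc

section Field
variable (G : Type) [Group G] (Ω : Type) [Field Ω] [MulSemiringAction G Ω]

/-- the action of `g` on `Ωˣ` -/
def uAct (g : G) : Ωˣ →* Ωˣ := Units.map (MulSemiringAction.toRingHom G Ω g : Ω →* Ω)

@[simp] lemma coe_uAct (g : G) (u : Ωˣ) : ((uAct G Ω g u : Ωˣ) : Ω) = g • (u : Ω) := rfl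

/-- the representation of `G` on `Additive Ωˣ` -/
def uRep : Representation ℤ G (Additive Ωˣ) where
  toFun g := (MonoidHom.toAdditive (uAct G Ω g)).toIntLinearMap
  map_one' := by
    refine LinearMap.ext fun a => Additive.toMul.injective (Units.ext ?_)
    change (1 : G) • ((Additive.toMul a : Ωˣ) : Ω) = _
    rw [one_smul]; rfl
  map_mul' g h := by
    refine LinearMap.ext fun a => Additive.toMul.injective (Units.ext ?_)
    change (g * h) • ((Additive.toMul a : Ωˣ) : Ω) = g • h • ((Additive.toMul a : Ωˣ) : Ω)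
    rw [mul_smul]

@[simp] lemma uRep_apply (g : G) (a : Additive Ωˣ) :
    uRep G Ω g a = Additive.ofMul (uAct G Ω g a.toMul) := rfl

/-- the subgroup of `G`-fixed units, `= (Ω^G)ˣ` -/
def fixU : Subgroup Ωˣ where
  carrier := {u | ∀ g : G, uAct G Ω g u = u}
  mul_mem' ha hb g := by rw [map_mul, ha g, hb g]
  one_mem' g := map_one _
  inv_mem' ha g := by rw [map_inv, ha g]

variable {G}

/-- `G` acts on `Ω` as a "Galois group with open subgroups `𝒰`" -/
structure IsGalAct (𝒰 : Levels G) : Prop where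
  smooth : ∀ x : Ω, ∃ U ∈ 𝒰.carrier, ∀ s ∈ U, s • x = x
  faithful : ∀ U ∈ 𝒰.carrier, ∀ g : G, (∀ x : Ω, (∀ s ∈ U, s • x = x) → g • x = x) → g ∈ U

variable {Ω}

/-- `ZMod p → Additive Ωˣ`, `a ↦ ζ ^ a` -/
def muEmb {p : ℕ} (ζ : Ωˣ) : ZMod p → Additive Ωˣ := fun a => Additive.ofMul (ζ ^ a.val)

end Field

end Fermat.Agent.CFT.Br
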