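import Fermat.Agent.CFT.Br.H90
import Fermat.Agent.CFT.Coh.H90Sub

/-!
# WP BR-GAL : the finite Galois correspondence for `IsGalAct`, and towers of subgroups.

`H ≤ G` open, `U ≤ H` a level.  `G/U` is a finite group acting faithfully on the field `Ω^U`.
* `mem_of_fix` : `g` fixes `Ω^H` pointwise ⇒ `g ∈ H`.
  Direct proof: there is `θ ∈ Ω^U` with trivial stabiliser in `G/U` (a vector space over an infinite
  field is not a finite union of proper subspaces, or Mathlib's Artin / primitive element);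
  `∏_{h ∈ H/U} (t - h θ) ∈ Ω^H` separates `gH ≠ H` for a suitable `t ∈ ℕ`.
  Or: Mathlib `FixedPoints.*`, `IsGalois.of_fixed_field`, `IntermediateField.fixingSubgroup_fixedField`.
* `exists_linear_relation` : `dim_k Ω^H ≤ [G:H]` (Artin's lemma).
* norm and characteristic polynomial from `Ω^H` to `k = Ω^G`.
* towers: restriction to `K.subgroupOf H` of a restriction to `H`.
-/

set_option autoImplicit false

namespace Fermat.Agent.CFT.Br

open Fermat.Agent.CFT

variable {G : Type} [Group G] {𝒰 : Levels G} {Ω : Type} [Field Ω] [MulSemiringAction G Ω]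

theorem IsGalAct.mem_of_fix [CharZero Ω] (h : IsGalAct Ω 𝒰) {H : Subgroup G}
    (hH : IsOpenSub 𝒰 H) (g : G) (hg : ∀ x : Ω, (∀ s ∈ H, s • x = x) → g • x = x) : g ∈ H := by
  obtain ⟨U, hU, hUH⟩ := hH
  have := 𝒰.finiteIndex U hU
  exact mem_of_fixes (Ω := Ω) (h.faithful U hU) hUH g hg

/-- the value `g • x` as a function of the coset `g H` -/
noncomputable def cosetVal (H : Subgroup G) (x : Ω) (q : G ⧸ H) : Ω := q.out • x

theorem cosetVal_mk {H : Subgroup G} {x : Ω} (hx : ∀ s ∈ H, s • x = x) (g : G) :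
    cosetVal H x (g : G ⧸ H) = g • x := by
  obtain ⟨s, hs⟩ := QuotientGroup.mk_out_eq_mul H g
  change (Quotient.out (g : G ⧸ H)) • x = g • x
  rw [hs, mul_smul, hx s s.2]

theorem smul_cosetVal {H : Subgroup G} {x : Ω} (hx : ∀ s ∈ H, s • x = x) (g : G) (q : G ⧸ H) :
    g • cosetVal H x q = cosetVal H x (g • q) := by
  induction q using QuotientGroup.induction_on with
  | H h =>
  have : g • (h : G ⧸ H) = ((g * h : G) : G ⧸ H) := rfl
  rw [this, cosetVal_mk hx, cosetVal_mk hx, mul_smul]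

/-- `dim_k Ω^H ≤ [G:H]` -/
theorem IsGalAct.exists_linear_relation (_h : IsGalAct Ω 𝒰) {H : Subgroup G}
    (hH : IsOpenSub 𝒰 H) {n : ℕ} (hn : H.index < n) (x : Fin n → Ω)
    (hx : ∀ i, ∀ s ∈ H, s • x i = x i) :
    ∃ a : Fin n → Ω, a ≠ 0 ∧ (∀ i, ∀ g : G, g • a i = a i) ∧ ∑ i, a i * x i = 0 := by
  classical
  obtain ⟨U, hU, hUH⟩ := hH
  have := 𝒰.finiteIndex U hU
  have hfi : H.FiniteIndex := Subgroup.finiteIndex_of_le hUH
  have : Finite (G ⧸ H) := Subgroup.finite_quotient_of_finiteIndex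
  have : Fintype (G ⧸ H) := Fintype.ofFinite _
  by_contra hcon
  push Not at hcon
  have hli : LinearIndependent (FixedPoints.subfield G Ω) x := by
    rw [Fintype.linearIndependent_iff]
    intro a ha i
    by_contra hai
    refine hcon (fun i => (a i : Ω)) (fun h0 => hai ?_) (fun i g => (a i).2 g) ?_
    · exact Subtype.ext (congrFun h0 i)
    · simpa [Subfield.smul_def] using ha
  have hinj : Function.Injective x := hli.injective
  have h1 : LinearIndepOn (FixedPoints.subfield G Ω) id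
      ((Finset.univ.image x : Finset Ω) : Set Ω) := by
    rw [Finset.coe_image, Finset.coe_univ, Set.image_univ]
    exact hli.linearIndepOn_id
  have h2 := FixedPoints.linearIndependent_smul_of_linearIndependent G Ω h1
  have h3 : LinearIndependent Ω (fun i => MulAction.toFun G Ω (x i)) := by
    have := LinearIndependent.comp h2
      (fun i : Fin n => (⟨x i, by simp⟩ : ((Finset.univ.image x : Finset Ω) : Set Ω)))
      (fun i j hij => hinj (Subtype.ext_iff.1 hij))
    exact this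
  let T : (G ⧸ H → Ω) →ₗ[Ω] (G → Ω) :=
    { toFun := fun F g => F (g : G ⧸ H)
      map_add' := fun _ _ => rfl
      map_smul' := fun _ _ => rfl }
  have h4 : LinearIndependent Ω (fun i => cosetVal H (x i)) := by
    apply LinearIndependent.of_comp T
    convert h3 using 1
    funext i g
    exact cosetVal_mk (hx i) g
  have h5 := h4.fintype_card_le_finrank
  rw [Fintype.card_fin, Module.finrank_fintype_fun_eq_card, ← Nat.card_eq_fintype_card] at h5
  exact absurd (lt_of_lt_of_le hn h5) (lt_irrefl _)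

/-- an enumeration of representatives of `G/H` starting with `1` -/
theorem exists_reps {H : Subgroup G} (hH : H.FiniteIndex) :
    ∃ (e : Fin H.index ≃ G ⧸ H) (t : Fin H.index → G), (∀ i, (t i : G ⧸ H) = e i) ∧
      t ⟨0, Nat.pos_of_ne_zero hH.index_ne_zero⟩ = 1 := by
  classical
  have : Finite (G ⧸ H) := Subgroup.finite_quotient_of_finiteIndex
  let e₀ : Fin H.index ≃ G ⧸ H := (Finite.equivFinOfCardEq (rfl : Nat.card (G ⧸ H) = H.index)).symm
  let z : Fin H.index := ⟨0, Nat.pos_of_ne_zero hH.index_ne_zero⟩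
  let e : Fin H.index ≃ G ⧸ H := e₀.trans (Equiv.swap (e₀ z) ((1 : G) : G ⧸ H))
  have he : e z = ((1 : G) : G ⧸ H) := by simp [e]
  refine ⟨e, fun i => if i = z then 1 else (e i).out, fun i => ?_, if_pos rfl⟩
  dsimp only
  by_cases hi : i = z
  · rw [if_pos hi, hi, he]
  · rw [if_neg hi]
    exact QuotientGroup.out_eq' _

/-- the characteristic polynomial of `x ∈ Ω^H` over `k = Ω^G` : monic of degree `[G:H]`, coefficients
in `k`, its roots are the conjugates `g x` -/
theorem exists_charpoly {H : Subgroup G} (hH : H.FiniteIndex) (x : Ω)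
    (hx : ∀ s ∈ H, s • x = x) :
    ∃ (P : Polynomial Ω) (t : Fin H.index → G), P = ∏ i, (Polynomial.X - Polynomial.C (t i • x)) ∧
      t ⟨0, Nat.pos_of_ne_zero hH.index_ne_zero⟩ = 1 ∧ ∀ (n : ℕ) (g : G), g • P.coeff n = P.coeff n := by
  classical
  have : Finite (G ⧸ H) := Subgroup.finite_quotient_of_finiteIndex
  have : Fintype (G ⧸ H) := Fintype.ofFinite _
  obtain ⟨e, t, ht, ht0⟩ := exists_reps hH
  refine ⟨_, t, rfl, ht0, fun n g => ?_⟩
  have h1 : ∏ i, (Polynomial.X - Polynomial.C (t i • x))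
      = ∏ q : G ⧸ H, (Polynomial.X - Polynomial.C (cosetVal H x q)) := by
    rw [← Equiv.prod_comp e]
    exact Finset.prod_congr rfl fun i _ => by rw [← ht i, cosetVal_mk hx]
  rw [h1, ← Polynomial.coeff_smul]
  congr 1
  rw [Finset.smul_prod', ← Equiv.prod_comp (MulAction.toPerm g)
    (fun q => Polynomial.X - Polynomial.C (cosetVal H x q))]
  refine Finset.prod_congr rfl fun q _ => ?_
  rw [smul_sub, Polynomial.smul_X, Polynomial.smul_C, smul_cosetVal hx, MulAction.toPerm_apply]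

/-- the norm of `x ∈ Ω^H` -/
theorem exists_norm {H : Subgroup G} (hH : H.FiniteIndex) (x : Ω) (hx : ∀ s ∈ H, s • x = x) :
    ∃ t : Fin H.index → G, ∀ g : G, g • (∏ i, t i • x) = ∏ i, t i • x := by
  classical
  have : Finite (G ⧸ H) := Subgroup.finite_quotient_of_finiteIndex
  have : Fintype (G ⧸ H) := Fintype.ofFinite _
  obtain ⟨e, t, ht, -⟩ := exists_reps hH
  refine ⟨t, fun g => ?_⟩
  have h1 : ∏ i, t i • x = ∏ q : G ⧸ H, cosetVal H x q := by
    rw [← Equiv.prod_comp e]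
    exact Finset.prod_congr rfl fun i _ => by rw [← ht i, cosetVal_mk hx]
  rw [h1, Finset.smul_prod', ← Equiv.prod_comp (MulAction.toPerm g) (fun q => cosetVal H x q)]
  exact Finset.prod_congr rfl fun q _ => by rw [smul_cosetVal hx, MulAction.toPerm_apply]

section Tower
variable {k : Type} [CommRing k] {V : Type} [AddCommGroup V] [Module k V]
  {ρ : Representation k G V}

theorem res2_subgroupOf_mem_B2 (H K : Subgroup G) {c : G × G → V}
    (h : res2 K c ∈ B2 (subLev 𝒰 K) (resRep K ρ)) :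
    res2 (K.subgroupOf H) (res2 H c) ∈
      B2 (subLev (subLev 𝒰 H) (K.subgroupOf H)) (resRep (K.subgroupOf H) (resRep H ρ)) := by
  let j : ↥(K.subgroupOf H) →* ↥K :=
    { toFun := fun z => ⟨((z : H) : G), z.2⟩
      map_one' := rfl
      map_mul' := fun _ _ => rfl }
  obtain ⟨u, ⟨_, ⟨U, hU, rfl⟩, huU⟩, hd⟩ := h
  refine ⟨u ∘ j, ⟨_, ⟨_, ⟨U, hU, rfl⟩, rfl⟩, fun g s hs => huU (j g) (j s) hs⟩, ?_⟩
  funext ⟨a, b⟩
  exact congrFun hd (j a, j b)

theorem res2_mem_B2_of_subgroupOf {H K : Subgroup G} (hKH : K ≤ H) {c : G × G → V}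
    (h : res2 (K.subgroupOf H) (res2 H c) ∈
      B2 (subLev (subLev 𝒰 H) (K.subgroupOf H)) (resRep (K.subgroupOf H) (resRep H ρ))) :
    res2 K c ∈ B2 (subLev 𝒰 K) (resRep K ρ) := by
  let j : ↥K →* ↥(K.subgroupOf H) :=
    { toFun := fun z => ⟨⟨(z : G), hKH z.2⟩, z.2⟩
      map_one' := rfl
      map_mul' := fun _ _ => rfl }
  obtain ⟨u, ⟨_, ⟨_, ⟨U, hU, rfl⟩, rfl⟩, huU⟩, hd⟩ := h
  refine ⟨u ∘ j, ⟨_, ⟨U, hU, rfl⟩, fun g s hs => huU (j g) (j s) hs⟩, ?_⟩
  funext ⟨a, b⟩
  exact congrFun hd (j a, j b)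

theorem res2_mem_Z2 (H : Subgroup G) {c : G × G → V} (hc : c ∈ Z2 𝒰 ρ) :
    res2 H c ∈ Z2 (subLev 𝒰 H) (resRep H ρ) :=
  comp_hom_mem_Z2 H.subtype (subLev_cont 𝒰 H) hc

theorem res2_mem_B2 (H : Subgroup G) {c : G × G → V} (hc : c ∈ B2 𝒰 ρ) :
    res2 H c ∈ B2 (subLev 𝒰 H) (resRep H ρ) :=
  comp_hom_mem_B2 H.subtype (subLev_cont 𝒰 H) hc

theorem IsOpenSub.subgroupOf {H K : Subgroup G} (hK : IsOpenSub 𝒰 K) :
    IsOpenSub (subLev 𝒰 H) (K.subgroupOf H) := by
  obtain ⟨U, hU, hUK⟩ := hK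
  exact ⟨_, ⟨U, hU, rfl⟩, fun x hx => hUK hx⟩

end Tower

end Fermat.Agent.CFT.Br
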