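import Fermat.Agent.CFT.Br.Defs
import Fermat.Agent.CFT.Coh.H90

/-!
# WP BR-H90 : smooth Hilbert 90, `H^1(G, Ωˣ) = 0`.

`f ∈ Z^1`, level-constant for `U₀`; its finitely many values are fixed by a level `U₁`; take a level
`U ≤ U₀ ⊓ U₁`.  The maps `x ↦ g • x` (`g` running through representatives of `G/U`), restricted to
the field `Ω^U`, are pairwise distinct by `faithful`, hence linearly independent over `Ω`
(Dedekind, `linearIndependent_monoidHom`), so there is `c ∈ Ω^U` with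
`b := ∑_{g ∈ G/U} f(g) · g c ≠ 0`, and `h b = f(h)⁻¹ b`.
-/

set_option autoImplicit false

namespace Fermat.Agent.CFT.Br

open Fermat.Agent.CFT

variable {G : Type} [Group G] {𝒰 : Levels G} {Ω : Type} [Field Ω] [MulSemiringAction G Ω]

theorem subLev_eq_sub (𝒰 : Levels G) (H : Subgroup G) : subLev 𝒰 H = 𝒰.sub H := rfl

theorem uRep_eq_unitsRep : uRep G Ω = unitsRep G Ω := rfl

theorem IsGalAct.sub (h : IsGalAct Ω 𝒰) (H : Subgroup G) : IsGalAct Ω (subLev 𝒰 H) := by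
  constructor
  · intro x
    obtain ⟨U, hU, hx⟩ := h.smooth x
    exact ⟨_, ⟨U, hU, rfl⟩, fun s hs => hx (s : G) hs⟩
  · rintro _ ⟨U, hU, rfl⟩ g hg
    exact h.faithful U hU (g : G) fun x hx => hg x fun s hs => hx (s : G) hs

theorem IsGalAct.isSmooth_uRep (h : IsGalAct Ω 𝒰) : IsSmooth 𝒰 (uRep G Ω) := by
  intro a
  obtain ⟨U, hU, hx⟩ := h.smooth ((Additive.toMul a : Ωˣ) : Ω)
  exact ⟨U, hU, fun s hs => Additive.toMul.injective (Units.ext (hx s hs))⟩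

theorem IsGalAct.isGaloisClosed (h : IsGalAct Ω 𝒰) : 𝒰.IsGaloisClosed Ω := h.faithful

theorem IsGalAct.hilbert90 (h : IsGalAct Ω 𝒰) : Z1 𝒰 (uRep G Ω) ≤ B1 (uRep G Ω) :=
  Fermat.Agent.CFT.hilbert90 h.isGaloisClosed

/-- the form in which `hH1` of BR-NORM / BR-SPLIT is needed -/
theorem IsGalAct.hilbert90_sub (h : IsGalAct Ω 𝒰) (H : Subgroup G) :
    Z1 (subLev 𝒰 H) (resRep H (uRep G Ω)) ≤ B1 (resRep H (uRep G Ω)) :=
  (h.sub H).hilbert90

/-- multiplicative unfolding -/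
theorem IsGalAct.hilbert90' (h : IsGalAct Ω 𝒰) (f : G → Ωˣ) (hf : 𝒰.LC1 f)
    (hc : ∀ g g', f (g * g') = f g * uAct G Ω g (f g')) :
    ∃ b : Ωˣ, ∀ g, f g = uAct G Ω g b / b := by
  obtain ⟨U, hU, hfU⟩ := hf
  have := 𝒰.normal U hU
  have := 𝒰.finiteIndex U hU
  obtain ⟨b, hb0, -, hb⟩ := hilbert90_mul (h.faithful U hU) (fun g => ((f g : Ωˣ) : Ω))
    (fun g => (f g).ne_zero) (fun g g' => by rw [hc]; rfl) (fun g s hs => by rw [hfU g s hs])
  refine ⟨Units.mk0 b hb0, fun g => Units.ext ?_⟩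
  rw [hb g, Units.val_div_eq_div_val]
  rfl

end Fermat.Agent.CFT.Br
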