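import Fermat.Agent.CFT.Br.H90

/-!
# WP BR-KUM : Kummer theory.  `H^1(G,μ_p) = kˣ/p`, `H^2(G,μ_p) = H^2(G,Ωˣ)[p]`  (`k = Ω^G`).

`μ_p` is `chiRep χ` (`χ : G →* (ZMod p)ˣ`, `g ζ = ζ^(χ g)`), embedded by `muEmb ζ`.
* inj: `c = d a` in `Ωˣ` ⇒ `a^p ∈ Z^1(G,Ωˣ)` ⇒ `a^p = d t` (H90); `s^p = t`; `a / d s` is `μ_p`-valued.
* surj: `p c = d a`; `b :=` a pointwise `p`-th root of `a` (`Function.surjInv ∘ a` is level-constant);
  `c - d b` is `μ_p`-valued.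
* `H^1`: `f ∈ Z^1(μ_p)` ⇒ `f = d b` in `Ωˣ`, `b^p ∈ k`; `f ↦ b^p` induces the bijection.
-/

set_option autoImplicit false
set_option linter.unusedSectionVars false

namespace Fermat.Agent.CFT.Br

open Fermat.Agent.CFT

variable {G : Type} [Group G] {𝒰 : Levels G} {Ω : Type} [Field Ω] [MulSemiringAction G Ω]
  {p : ℕ} [Fact p.Prime] {χ : G →* (ZMod p)ˣ} {ζ : Ωˣ}

lemma muEmb_injective (hζ : IsPrimitiveRoot ζ p) : Function.Injective (muEmb (p := p) ζ) := by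
  intro a b hab
  have h1 : ζ ^ a.val = ζ ^ b.val := Additive.ofMul.injective hab
  exact ZMod.val_injective p (hζ.pow_inj (ZMod.val_lt a) (ZMod.val_lt b) h1)

lemma muEmb_add (hζ : IsPrimitiveRoot ζ p) (a b : ZMod p) :
    muEmb ζ (a + b) = muEmb ζ a + muEmb ζ b := by
  unfold muEmb
  rw [← ofMul_mul, ← pow_add, ZMod.val_add, ← pow_eq_pow_mod _ hζ.pow_eq_one]

/-- `muEmb` as an additive homomorphism -/
def muHom (hζ : IsPrimitiveRoot ζ p) : ZMod p →+ Additive Ωˣ where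
  toFun := muEmb ζ
  map_zero' := by simp [muEmb]
  map_add' := muEmb_add hζ

@[simp] lemma muHom_apply (hζ : IsPrimitiveRoot ζ p) (a : ZMod p) : muHom hζ a = muEmb ζ a := rfl

lemma muEmb_zero (hζ : IsPrimitiveRoot ζ p) : muEmb (p := p) ζ 0 = 0 := (muHom hζ).map_zero
lemma muEmb_sub (hζ : IsPrimitiveRoot ζ p) (a b : ZMod p) :
    muEmb ζ (a - b) = muEmb ζ a - muEmb ζ b := (muHom hζ).map_sub a b
lemma muEmb_neg (hζ : IsPrimitiveRoot ζ p) (a : ZMod p) :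
    muEmb ζ (-a) = - muEmb ζ a := (muHom hζ).map_neg a

lemma nsmul_muEmb (hζ : IsPrimitiveRoot ζ p) (a : ZMod p) : p • muEmb ζ a = 0 := by
  unfold muEmb
  rw [← ofMul_pow, ← pow_mul, mul_comm, pow_mul, hζ.pow_eq_one, one_pow, ofMul_one]

lemma muEmb_equivariant (hζ : IsPrimitiveRoot ζ p)
    (hχ : ∀ g, uAct G Ω g ζ = ζ ^ (χ g : ZMod p).val) (g : G) (a : ZMod p) :
    muEmb ζ (chiRep χ g a) = uRep G Ω g (muEmb ζ a) := by
  have h1 : chiRep χ g a = (χ g : ZMod p) * a := by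
    simp [chiRep, Representation.twist_apply_apply]
  rw [h1, uRep_apply]
  unfold muEmb
  rw [toMul_ofMul, (uAct G Ω g).map_pow, hχ, ← pow_mul, ZMod.val_mul,
    ← pow_eq_pow_mod _ hζ.pow_eq_one]

lemma exists_muEmb_eq (hζ : IsPrimitiveRoot ζ p) {x : Additive Ωˣ} (hx : p • x = 0) :
    ∃ a : ZMod p, muEmb ζ a = x := by
  have hp : p.Prime := Fact.out
  have h1 : (x.toMul : Ωˣ) ^ p = 1 := by
    have := congrArg Additive.toMul hx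
    simpa using this
  have h2 : ((x.toMul : Ωˣ) : Ω) ^ p = 1 := by
    rw [← Units.val_pow_eq_pow_val, h1, Units.val_one]
  have hζ' : IsPrimitiveRoot (ζ : Ω) p := IsPrimitiveRoot.coe_units_iff.2 hζ
  have : NeZero p := ⟨hp.ne_zero⟩
  obtain ⟨i, hi, h3⟩ := hζ'.eq_pow_of_pow_eq_one h2
  refine ⟨(i : ZMod p), ?_⟩
  unfold muEmb
  rw [ZMod.val_natCast, Nat.mod_eq_of_lt hi]
  apply Additive.toMul.injective
  rw [toMul_ofMul]
  exact Units.ext (by rw [Units.val_pow_eq_pow_val, h3])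

lemma d01_muEmb (hζ : IsPrimitiveRoot ζ p)
    (hχ : ∀ g, uAct G Ω g ζ = ζ ^ (χ g : ZMod p).val) (a : ZMod p) :
    d01 (uRep G Ω) (muEmb ζ a) = muEmb ζ ∘ d01 (chiRep χ) a := by
  funext g
  simp only [d01_apply, Function.comp_apply]
  rw [muEmb_sub hζ, muEmb_equivariant hζ hχ]

lemma d12_muEmb (hζ : IsPrimitiveRoot ζ p)
    (hχ : ∀ g, uAct G Ω g ζ = ζ ^ (χ g : ZMod p).val) (a : G → ZMod p) :
    d12 (uRep G Ω) (muEmb ζ ∘ a) = muEmb ζ ∘ d12 (chiRep χ) a := by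
  funext g
  simp only [d12_apply, Function.comp_apply]
  rw [muEmb_add hζ, muEmb_sub hζ, muEmb_equivariant hζ hχ]

lemma d23_muEmb (hζ : IsPrimitiveRoot ζ p)
    (hχ : ∀ g, uAct G Ω g ζ = ζ ^ (χ g : ZMod p).val) (a : G × G → ZMod p) :
    d23 (uRep G Ω) (muEmb ζ ∘ a) = muEmb ζ ∘ d23 (chiRep χ) a := by
  funext g
  simp only [d23_apply, Function.comp_apply]
  rw [muEmb_sub hζ, muEmb_add hζ, muEmb_sub hζ, muEmb_equivariant hζ hχ]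

theorem muEmb_comp_mem_Z2 (hζ : IsPrimitiveRoot ζ p)
    (hχ : ∀ g, uAct G Ω g ζ = ζ ^ (χ g : ZMod p).val) {c : G × G → ZMod p}
    (hc : c ∈ Z2 𝒰 (chiRep χ)) : muEmb ζ ∘ c ∈ Z2 𝒰 (uRep G Ω) := by
  refine ⟨LinearMap.mem_ker.2 ?_, hc.2.comp _⟩
  rw [d23_muEmb hζ hχ, LinearMap.mem_ker.1 hc.1]
  funext g
  exact muEmb_zero hζ

theorem muEmb_comp_mem_B2 (hζ : IsPrimitiveRoot ζ p)
    (hχ : ∀ g, uAct G Ω g ζ = ζ ^ (χ g : ZMod p).val) {c : G × G → ZMod p}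
    (hc : c ∈ B2 𝒰 (chiRep χ)) : muEmb ζ ∘ c ∈ B2 𝒰 (uRep G Ω) := by
  obtain ⟨a, ha, rfl⟩ := hc
  exact ⟨muEmb ζ ∘ a, ha.comp _, d12_muEmb hζ hχ a⟩

theorem muEmb_comp_mem_Z1 (hζ : IsPrimitiveRoot ζ p)
    (hχ : ∀ g, uAct G Ω g ζ = ζ ^ (χ g : ZMod p).val) {c : G → ZMod p}
    (hc : c ∈ Z1 𝒰 (chiRep χ)) : muEmb ζ ∘ c ∈ Z1 𝒰 (uRep G Ω) := by
  refine ⟨LinearMap.mem_ker.2 ?_, hc.2.comp _⟩
  rw [d12_muEmb hζ hχ, LinearMap.mem_ker.1 hc.1]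
  funext g
  exact muEmb_zero hζ

/-- a `p`-torsion valued function factors through `muEmb`. -/
lemma exists_comp_muEmb (hζ : IsPrimitiveRoot ζ p) {X : Type*} (a : X → Additive Ωˣ)
    (ha : ∀ x, p • a x = 0) : ∃ f : X → ZMod p, muEmb ζ ∘ f = a := by
  choose f hf using fun x => exists_muEmb_eq hζ (ha x)
  exact ⟨f, funext hf⟩

lemma LC1_of_muEmb_comp (hζ : IsPrimitiveRoot ζ p) {f : G → ZMod p}
    (h : 𝒰.LC1 (muEmb ζ ∘ f)) : 𝒰.LC1 f := by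
  obtain ⟨U, hU, hh⟩ := h
  exact ⟨U, hU, fun g s hs => muEmb_injective hζ (hh g s hs)⟩

lemma LC2_of_muEmb_comp (hζ : IsPrimitiveRoot ζ p) {f : G × G → ZMod p}
    (h : 𝒰.LC2 (muEmb ζ ∘ f)) : 𝒰.LC2 f := by
  obtain ⟨U, hU, hh⟩ := h
  exact ⟨U, hU, fun g₁ g₂ s₁ s₂ hs₁ hs₂ => muEmb_injective hζ (hh g₁ g₂ s₁ s₂ hs₁ hs₂)⟩

/-- `H^2(G,μ_p) → H^2(G,Ωˣ)` is injective -/
theorem kummer_H2_inj (h : IsGalAct Ω 𝒰) (hroot : ∀ x : Ωˣ, ∃ y, y ^ p = x)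
    (hζ : IsPrimitiveRoot ζ p) (hχ : ∀ g, uAct G Ω g ζ = ζ ^ (χ g : ZMod p).val)
    {c : G × G → ZMod p} (hc : c ∈ Z2 𝒰 (chiRep χ)) (hB : muEmb ζ ∘ c ∈ B2 𝒰 (uRep G Ω)) :
    c ∈ B2 𝒰 (chiRep χ) := by
  obtain ⟨a, ha, hac⟩ := hB
  have hsm := h.isSmooth_uRep
  -- `p • a` is a cocycle
  have h1 : p • a ∈ Z1 𝒰 (uRep G Ω) := by
    refine ⟨LinearMap.mem_ker.2 ?_, (C1 ℤ (Additive Ωˣ) 𝒰).smul_of_tower_mem p ha⟩
    rw [map_nsmul, hac]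
    funext g
    exact nsmul_muEmb hζ _
  obtain ⟨t, ht⟩ := h.hilbert90 h1
  obtain ⟨s, hs⟩ := hroot t.toMul
  have hs' : p • (Additive.ofMul s) = t := by
    rw [← ofMul_pow, hs, ofMul_toMul]
  set a' : G → Additive Ωˣ := a - d01 (uRep G Ω) (Additive.ofMul s) with ha'
  have h2 : ∀ g, p • a' g = 0 := by
    intro g
    have h3 : p • a' = 0 := by
      rw [ha', nsmul_sub, ← map_nsmul, hs', ht, sub_self]
    exact congrFun h3 g
  obtain ⟨f, hf⟩ := exists_comp_muEmb hζ a' h2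
  have ha'C : a' ∈ C1 ℤ (Additive Ωˣ) 𝒰 := Submodule.sub_mem _ ha (d01_mem_C1 hsm _)
  refine ⟨f, LC1_of_muEmb_comp hζ (by rw [hf]; exact ha'C), ?_⟩
  funext g
  apply muEmb_injective hζ
  have h4 : muEmb ζ ∘ d12 (chiRep χ) f = muEmb ζ ∘ c := by
    rw [← d12_muEmb hζ hχ, hf, ha', map_sub, d12_d01, sub_zero, hac]
  exact congrFun h4 g

/-- the image of `H^2(G,μ_p) → H^2(G,Ωˣ)` is the `p`-torsion -/
theorem kummer_H2_surj (h : IsGalAct Ω 𝒰) (hroot : ∀ x : Ωˣ, ∃ y, y ^ p = x)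
    (hζ : IsPrimitiveRoot ζ p) (hχ : ∀ g, uAct G Ω g ζ = ζ ^ (χ g : ZMod p).val)
    {c : G × G → Additive Ωˣ} (hc : c ∈ Z2 𝒰 (uRep G Ω)) (hp : p • c ∈ B2 𝒰 (uRep G Ω)) :
    ∃ c' ∈ Z2 𝒰 (chiRep χ), c - muEmb ζ ∘ c' ∈ B2 𝒰 (uRep G Ω) := by
  obtain ⟨a, ha, hac⟩ := hp
  have hsm := h.isSmooth_uRep
  have hsurj : Function.Surjective (fun x : Additive Ωˣ => p • x) := by
    intro x
    obtain ⟨y, hy⟩ := hroot x.toMul
    exact ⟨Additive.ofMul y, by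
      change p • Additive.ofMul y = x
      rw [← ofMul_pow, hy, ofMul_toMul]⟩
  set b : G → Additive Ωˣ := Function.surjInv hsurj ∘ a with hb
  have hbC : b ∈ C1 ℤ (Additive Ωˣ) 𝒰 := ha.comp _
  have hpb : p • b = a := funext fun g => Function.surjInv_eq hsurj (a g)
  set c'' : G × G → Additive Ωˣ := c - d12 (uRep G Ω) b with hc''
  have h2 : ∀ g, p • c'' g = 0 := by
    intro g
    have h3 : p • c'' = 0 := by
      rw [hc'', nsmul_sub, ← map_nsmul, hpb, hac, sub_self]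
    exact congrFun h3 g
  obtain ⟨c', hc'⟩ := exists_comp_muEmb hζ c'' h2
  have hc''Z : c'' ∈ Z2 𝒰 (uRep G Ω) :=
    Submodule.sub_mem _ hc (B2_le_Z2 hsm ⟨b, hbC, rfl⟩)
  refine ⟨c', ⟨LinearMap.mem_ker.2 ?_, LC2_of_muEmb_comp hζ (by rw [hc']; exact hc''Z.2)⟩, ?_⟩
  · funext g
    apply muEmb_injective hζ
    have h4 : muEmb ζ ∘ d23 (chiRep χ) c' = 0 := by
      rw [← d23_muEmb hζ hχ, hc', LinearMap.mem_ker.1 hc''Z.1]
    rw [Pi.zero_apply, muEmb_zero hζ]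
    exact congrFun h4 g
  · rw [hc', hc'', sub_sub_cancel]
    exact ⟨b, hbC, rfl⟩

lemma d01_uRep_apply (b : Ωˣ) (g : G) :
    d01 (uRep G Ω) (Additive.ofMul b) g = Additive.ofMul (uAct G Ω g b / b) := rfl

/-- description of `Z^1(G,μ_p)` -/
theorem kummer_Z1 (h : IsGalAct Ω 𝒰) (hζ : IsPrimitiveRoot ζ p)
    (hχ : ∀ g, uAct G Ω g ζ = ζ ^ (χ g : ZMod p).val) {f : G → ZMod p}
    (hf : f ∈ Z1 𝒰 (chiRep χ)) :
    ∃ b : Ωˣ, b ^ p ∈ fixU G Ω ∧ ∀ g, muEmb ζ (f g) = Additive.ofMul (uAct G Ω g b / b) := by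
  obtain ⟨β, hβ⟩ := h.hilbert90 (muEmb_comp_mem_Z1 hζ hχ hf)
  have h1 : ∀ g, muEmb ζ (f g) = Additive.ofMul (uAct G Ω g β.toMul / β.toMul) := fun g =>
    (congrFun hβ g).symm
  refine ⟨β.toMul, fun g => ?_, h1⟩
  have h2 := nsmul_muEmb hζ (f g)
  rw [h1 g, ← ofMul_pow, ofMul_eq_zero, div_pow, div_eq_one] at h2
  rw [map_pow, h2]

theorem kummer_Z1_exists (h : IsGalAct Ω 𝒰) (hζ : IsPrimitiveRoot ζ p)
    (hχ : ∀ g, uAct G Ω g ζ = ζ ^ (χ g : ZMod p).val) {b : Ωˣ} (hb : b ^ p ∈ fixU G Ω) :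
    ∃ f ∈ Z1 𝒰 (chiRep χ), ∀ g, muEmb ζ (f g) = Additive.ofMul (uAct G Ω g b / b) := by
  have hsm := h.isSmooth_uRep
  have h1 : ∀ g, p • d01 (uRep G Ω) (Additive.ofMul b) g = 0 := by
    intro g
    rw [d01_uRep_apply, ← ofMul_pow, ofMul_eq_zero, div_pow, div_eq_one, ← map_pow]
    exact hb g
  obtain ⟨f, hf⟩ := exists_comp_muEmb hζ _ h1
  refine ⟨f, ⟨LinearMap.mem_ker.2 ?_, LC1_of_muEmb_comp hζ (by
    rw [hf]; exact d01_mem_C1 hsm _)⟩, fun g => congrFun hf g⟩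
  funext g
  apply muEmb_injective hζ
  have h4 : muEmb ζ ∘ d12 (chiRep χ) f = 0 := by
    rw [← d12_muEmb hζ hχ, hf, d12_d01]
  rw [Pi.zero_apply, muEmb_zero hζ]
  exact congrFun h4 g

/-- `f ∈ B^1` iff `b^p` is a `p`-th power in `k` -/
theorem kummer_B1_iff (hζ : IsPrimitiveRoot ζ p)
    (hχ : ∀ g, uAct G Ω g ζ = ζ ^ (χ g : ZMod p).val) {f : G → ZMod p} {b : Ωˣ}
    (hfb : ∀ g, muEmb ζ (f g) = Additive.ofMul (uAct G Ω g b / b)) :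
    f ∈ B1 (chiRep χ) ↔ ∃ y ∈ fixU G Ω, y ^ p = b ^ p := by
  constructor
  · rintro ⟨a₀, rfl⟩
    set z : Ωˣ := (muEmb ζ a₀).toMul with hz
    have hzp : z ^ p = 1 := by
      have := nsmul_muEmb hζ a₀
      rw [← ofMul_toMul (muEmb ζ a₀), ← ofMul_pow, ofMul_eq_zero] at this
      exact this
    refine ⟨b / z, fun g => ?_, by rw [div_pow, hzp, div_one]⟩
    have h1 := hfb g
    have h2 := congrFun (d01_muEmb hζ hχ a₀) g
    rw [Function.comp_apply] at h2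
    rw [← h2, ← ofMul_toMul (muEmb ζ a₀), d01_uRep_apply] at h1
    have h3 : uAct G Ω g z / z = uAct G Ω g b / b := Additive.ofMul.injective h1
    rw [map_div]
    rw [div_eq_div_iff_mul_eq_mul] at h3 ⊢
    rw [← h3, mul_comm]
  · rintro ⟨y, hy, hyb⟩
    have h1 : p • Additive.ofMul (b / y) = 0 := by
      rw [← ofMul_pow, div_pow, hyb, div_self', ofMul_one]
    obtain ⟨a₀, ha₀⟩ := exists_muEmb_eq hζ h1
    refine ⟨a₀, ?_⟩
    funext g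
    apply muEmb_injective hζ
    have h2 := congrFun (d01_muEmb hζ hχ a₀) g
    rw [Function.comp_apply] at h2
    rw [← h2, ha₀, d01_uRep_apply, hfb g, (uAct G Ω g).map_div, hy g]
    congr 1
    rw [div_div_div_cancel_right]

/-- two cocycles with the same `b ^ p` modulo `p`-th powers of `k` are cohomologous. -/
lemma sub_mem_B1_of (hζ : IsPrimitiveRoot ζ p)
    (hχ : ∀ g, uAct G Ω g ζ = ζ ^ (χ g : ZMod p).val) {f f' : G → ZMod p} {b b' : Ωˣ}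
    (hfb : ∀ g, muEmb ζ (f g) = Additive.ofMul (uAct G Ω g b / b))
    (hfb' : ∀ g, muEmb ζ (f' g) = Additive.ofMul (uAct G Ω g b' / b'))
    (h : ∃ y ∈ fixU G Ω, y ^ p = (b / b') ^ p) : f - f' ∈ B1 (chiRep χ) := by
  refine (kummer_B1_iff hζ hχ (b := b / b') fun g => ?_).2 h
  rw [Pi.sub_apply, muEmb_sub hζ, hfb, hfb', ← ofMul_div, (uAct G Ω g).map_div]
  congr 1
  rw [div_div_div_comm]

/-- `#H^1(G,μ_p) = (kˣ : kˣᵖ)` (both sides `0` if infinite) -/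
theorem card_H1_mu (h : IsGalAct Ω 𝒰) (hroot : ∀ x : Ωˣ, ∃ y, y ^ p = x)
    (hζ : IsPrimitiveRoot ζ p) (hχ : ∀ g, uAct G Ω g ζ = ζ ^ (χ g : ZMod p).val) :
    Nat.card (H1 𝒰 (chiRep χ)) =
      (powMonoidHom p : ↥(fixU G Ω) →* ↥(fixU G Ω)).range.index := by
  classical
  -- choices
  choose r hr using hroot
  have hex : ∀ x : ↥(fixU G Ω), ∃ f ∈ Z1 𝒰 (chiRep χ),
      ∀ g, muEmb ζ (f g) = Additive.ofMul (uAct G Ω g (r x) / r x) := fun x =>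
    kummer_Z1_exists h hζ hχ (by rw [hr]; exact x.2)
  choose F hFZ hF using hex
  let q : ↥(Z1 𝒰 (chiRep χ)) →ₗ[ZMod p] H1 𝒰 (chiRep χ) := Submodule.mkQ _
  have hq0 : ∀ z : ↥(Z1 𝒰 (chiRep χ)), q z = 0 ↔ (z : G → ZMod p) ∈ B1 (chiRep χ) := by
    intro z
    rw [Submodule.mkQ_apply, Submodule.Quotient.mk_eq_zero]
    rfl
  let θ : ↥(fixU G Ω) →* Multiplicative (H1 𝒰 (chiRep χ)) :=
    MonoidHom.mk' (fun x => Multiplicative.ofAdd (q ⟨F x, hFZ x⟩)) (by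
      intro x x'
      rw [← ofAdd_add]
      congr 1
      rw [← map_add, ← sub_eq_zero, ← map_sub, hq0]
      have h1 : ∀ g, muEmb ζ ((F x + F x') g) =
          Additive.ofMul (uAct G Ω g (r x * r x') / (r x * r x')) := by
        intro g
        rw [Pi.add_apply, muEmb_add hζ, hF, hF, ← ofMul_mul, (uAct G Ω g).map_mul]
        congr 1
        rw [div_mul_div_comm]
      refine sub_mem_B1_of hζ hχ (hF (x * x')) h1 ⟨1, (fixU G Ω).one_mem, ?_⟩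
      rw [one_pow, div_pow, mul_pow, hr, hr, hr, Subgroup.coe_mul, div_self'])
  have hθ : ∀ x, θ x = Multiplicative.ofAdd (q ⟨F x, hFZ x⟩) := fun x => rfl
  have hker : θ.ker = (powMonoidHom p : ↥(fixU G Ω) →* ↥(fixU G Ω)).range := by
    ext x
    rw [MonoidHom.mem_ker, hθ, ofAdd_eq_one, hq0, kummer_B1_iff hζ hχ (hF x), hr,
      MonoidHom.mem_range]
    constructor
    · rintro ⟨y, hy, hyx⟩
      exact ⟨⟨y, hy⟩, Subtype.ext hyx⟩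
    · rintro ⟨y, hy⟩
      exact ⟨y, y.2, congrArg Subtype.val hy⟩
  have hsurj : Function.Surjective θ := by
    intro c
    obtain ⟨z, hz⟩ := Submodule.mkQ_surjective _ c.toAdd
    obtain ⟨b, hb, hfb⟩ := kummer_Z1 h hζ hχ z.2
    refine ⟨⟨b ^ p, hb⟩, ?_⟩
    rw [hθ]
    apply Multiplicative.toAdd.injective
    rw [toAdd_ofAdd, ← hz]
    change q _ = q z
    rw [← sub_eq_zero, ← map_sub, hq0]
    refine sub_mem_B1_of hζ hχ (hF _) hfb ⟨1, (fixU G Ω).one_mem, ?_⟩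
    rw [one_pow, div_pow, hr, div_self']
  rw [← hker, Subgroup.index_ker, MonoidHom.range_eq_top.2 hsurj]
  exact (Nat.card_congr (Subgroup.topEquiv.toEquiv.trans Multiplicative.toAdd)).symm

end Fermat.Agent.CFT.Br
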