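import Fermat.Agent.CFT.Br.Cyc

/-!
# WP BR-NORM : `(χ, y) = 0  ↔  y` is a norm.

`χ : G → ZMod N` smooth, `χ σ = 1` (so `χ` is onto), `G' = ker χ`, `y ∈ V^G`,
`H^1(G', V) = 0`.  Write `[g] = (χ g).val`.

(⇐) `y = ∑_{i<N} σ^i z`, `z ∈ V^{G'}`.  Put `a g = ∑_{i<[g]} σ^i z`.  As `g σ^{-[g]} ∈ G'` and `G'` is
normal, `g` acts on `V^{G'}` as `σ^[g]`, `σ^N` acts trivially, hence
`a g + g a h = ∑_{i<[g]+[h]} σ^i z = a (g h) + carry • y`.  `a` is level-constant (depends on `χ g`).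

(⇒) `cyc χ y = d a`.  On `G' × G'` the cocycle vanishes, so `a|G'` is a 1-cocycle, `= d b` by `hH1`.
Replace `a` by `a - d b`: now `a|G' = 0`.  `cyc (g,g') = 0 = cyc (g',g)` for `g' ∈ G'` give
`a (g g') = a g`, `a (g' g) = g' a g`; normality gives `a g ∈ V^{G'}`.  With `z = a σ`:
`a (σ^(i+1)) = z + σ a (σ^i)` for `i + 1 < N`, and `y = z + σ a (σ^(N-1)) - a (σ^N)`, `a (σ^N) = 0`.
-/

set_option autoImplicit false
set_option linter.unusedSectionVars false
set_option linter.unusedVariables false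

namespace Fermat.Agent.CFT.Br

open Fermat.Agent.CFT

variable {k : Type} [CommRing k] {G : Type} [Group G] {V : Type} [AddCommGroup V] [Module k V]
  {𝒰 : Levels G} {ρ : Representation k G V} {N : ℕ} [NeZero N]

section aux

/-- partial sums of a periodic sequence -/
lemma sum_range_add_mul_of_periodic (t : ℕ → V) (ht : ∀ i, t (i + N) = t i) (m c : ℕ) :
    ∑ i ∈ Finset.range (m + N * c), t i
      = ∑ i ∈ Finset.range m, t i + c • ∑ i ∈ Finset.range N, t i := by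
  induction c with
  | zero => simp
  | succ c ih =>
    have h1 : m + N * (c + 1) = N + (m + N * c) := by ring
    rw [h1, Finset.sum_range_add]
    have h2 : ∀ x, t (N + x) = t x := fun x => by rw [add_comm, ht]
    simp only [h2]
    rw [ih, succ_nsmul]
    abel

lemma chi_pow_of_eq_one {χ : G →* Multiplicative (ZMod N)} {σ : G}
    (hσ : χ σ = Multiplicative.ofAdd 1) (i : ℕ) :
    χ (σ ^ i) = Multiplicative.ofAdd (i : ZMod N) := by
  rw [map_pow, hσ, ← ofAdd_nsmul, nsmul_eq_mul, mul_one]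

lemma pow_val_inv_mul_mem_ker {χ : G →* Multiplicative (ZMod N)} {σ : G}
    (hσ : χ σ = Multiplicative.ofAdd 1) (g : G) :
    (σ ^ (χ g).toAdd.val)⁻¹ * g ∈ χ.ker := by
  rw [MonoidHom.mem_ker, map_mul, map_inv, chi_pow_of_eq_one hσ, ZMod.natCast_zmod_val]
  simp

lemma pow_N_mem_ker {χ : G →* Multiplicative (ZMod N)} (σ : G) : σ ^ N ∈ χ.ker := by
  rw [MonoidHom.mem_ker, map_pow]
  apply Multiplicative.toAdd.injective
  rw [toAdd_pow, toAdd_one, nsmul_eq_mul, ZMod.natCast_self, zero_mul]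

/-- `g` acts on `V^{ker χ}` as `σ ^ [g]` -/
lemma rho_eq_rho_pow {χ : G →* Multiplicative (ZMod N)} {σ : G}
    (hσ : χ σ = Multiplicative.ofAdd 1) {w : V} (hw : ∀ s ∈ χ.ker, ρ s w = w) (g : G) :
    ρ g w = ρ (σ ^ (χ g).toAdd.val) w := by
  have h1 : g = σ ^ (χ g).toAdd.val * ((σ ^ (χ g).toAdd.val)⁻¹ * g) := by group
  conv_lhs => rw [h1, map_mul, Module.End.mul_apply, hw _ (pow_val_inv_mul_mem_ker hσ g)]

lemma rho_fixed_of_fixed {χ : G →* Multiplicative (ZMod N)} {w : V}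
    (hw : ∀ s ∈ χ.ker, ρ s w = w) (g : G) : ∀ s ∈ χ.ker, ρ s (ρ g w) = ρ g w := by
  intro s hs
  have h1 : s * g = g * (g⁻¹ * s * g) := by group
  have h2 : g⁻¹ * s * g ∈ χ.ker := by
    have := (inferInstance : χ.ker.Normal).conj_mem s hs g⁻¹
    simpa using this
  rw [← Module.End.mul_apply, ← map_mul, h1, map_mul, Module.End.mul_apply, hw _ h2]

end aux

theorem cyc_mem_B2_of_norm {χ : G →* Multiplicative (ZMod N)} (hχ : IsSmoothChar 𝒰 χ)
    {σ : G} (hσ : χ σ = Multiplicative.ofAdd 1) {z : V} (hz : ∀ s ∈ χ.ker, ρ s z = z) :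
    cyc χ (∑ i ∈ Finset.range N, ρ (σ ^ i) z) ∈ B2 𝒰 ρ := by
  set t : ℕ → V := fun i => ρ (σ ^ i) z with ht
  have hper : ∀ i, t (i + N) = t i := by
    intro i
    simp only [ht]
    rw [pow_add, map_mul, Module.End.mul_apply, hz _ (pow_N_mem_ker σ)]
  refine ⟨fun g => ∑ i ∈ Finset.range (χ g).toAdd.val, t i, ?_, ?_⟩
  · obtain ⟨U, hU, h⟩ := hχ
    refine ⟨U, hU, fun g s hs => ?_⟩
    simp only [map_mul, h s hs, mul_one]
  · funext ⟨g, h⟩
    simp only [d12_apply, cyc]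
    have h1 : ρ g (∑ i ∈ Finset.range (χ h).toAdd.val, t i)
        = ∑ i ∈ Finset.range (χ h).toAdd.val, t ((χ g).toAdd.val + i) := by
      rw [map_sum]
      refine Finset.sum_congr rfl fun i _ => ?_
      simp only [ht]
      rw [rho_eq_rho_pow hσ (rho_fixed_of_fixed hz _) g, ← Module.End.mul_apply, ← map_mul,
        ← pow_add]
    have h2 := Finset.sum_range_add t (χ g).toAdd.val (χ h).toAdd.val
    have h3 := val_add_val (χ g).toAdd (χ h).toAdd
    have h4 := sum_range_add_mul_of_periodic t hper ((χ g).toAdd + (χ h).toAdd).val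
      (carry (χ g).toAdd (χ h).toAdd)
    rw [← h3, h2] at h4
    rw [h1, map_mul, toAdd_mul]
    rw [add_comm] at h4
    rw [sub_add_eq_add_sub, h4]
    abel

theorem exists_norm_of_cyc_mem_B2 (hρ : IsSmooth 𝒰 ρ) {χ : G →* Multiplicative (ZMod N)}
    (hχ : IsSmoothChar 𝒰 χ) {σ : G} (hσ : χ σ = Multiplicative.ofAdd 1)
    (hH1 : Z1 (subLev 𝒰 χ.ker) (resRep χ.ker ρ) ≤ B1 (resRep χ.ker ρ))
    {y : V} (hy : ∀ g, ρ g y = y) (h : cyc χ y ∈ B2 𝒰 ρ) :
    ∃ z : V, (∀ s ∈ χ.ker, ρ s z = z) ∧ y = ∑ i ∈ Finset.range N, ρ (σ ^ i) z := by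
  -- the trivial case `N = 1`
  rcases Nat.lt_or_ge 1 N with hN | hN
  swap
  · have hN1 : N = 1 := le_antisymm hN (Nat.one_le_iff_ne_zero.2 (NeZero.ne N))
    subst hN1
    exact ⟨y, fun s _ => hy s, by simp⟩
  obtain ⟨a, ha, hda⟩ := h
  have hcyc : ∀ g h : G, ρ g (a h) - a (g * h) + a g
      = carry (χ g).toAdd (χ h).toAdd • y := fun g h => congrFun hda (g, h)
  have hker : ∀ s ∈ χ.ker, (χ s).toAdd = 0 := by
    intro s hs
    rw [MonoidHom.mem_ker.1 hs]; rfl
  -- `a` restricted to the kernel is a cocycle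
  have hZ : res1 χ.ker a ∈ Z1 (subLev 𝒰 χ.ker) (resRep χ.ker ρ) := by
    refine ⟨?_, comp_hom_mem_C1 (r := χ.ker.subtype) (subLev_cont 𝒰 χ.ker) ha⟩
    change d12 (resRep χ.ker ρ) (res1 χ.ker a) = 0
    funext ⟨s, t⟩
    have := hcyc s t
    rw [hker s s.2, carry_zero_left, zero_smul] at this
    exact this
  obtain ⟨b, hb⟩ := hH1 hZ
  have hb' : ∀ s ∈ χ.ker, a s = ρ s b - b := fun s hs => (congrFun hb ⟨s, hs⟩).symm
  -- normalise
  set a' : G → V := fun g => a g - (ρ g b - b) with ha'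
  have hcyc' : ∀ g h : G, ρ g (a' h) - a' (g * h) + a' g
      = carry (χ g).toAdd (χ h).toAdd • y := by
    intro g h
    rw [← hcyc g h]
    simp only [ha', map_sub, map_mul, Module.End.mul_apply]
    abel
  have h0 : ∀ s ∈ χ.ker, a' s = 0 := by
    intro s hs
    simp only [ha', hb' s hs, sub_self]
  have hr : ∀ g, ∀ s ∈ χ.ker, a' (g * s) = a' g := by
    intro g s hs
    have := hcyc' g s
    rw [hker s hs, carry_zero_right, zero_smul, h0 s hs, map_zero, zero_sub, neg_add_eq_zero] at this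
    exact this
  have hl : ∀ g, ∀ s ∈ χ.ker, a' (s * g) = ρ s (a' g) := by
    intro g s hs
    have := hcyc' s g
    rw [hker s hs, carry_zero_left, zero_smul, h0 s hs, add_zero, sub_eq_zero] at this
    exact this.symm
  have hfix : ∀ g, ∀ s ∈ χ.ker, ρ s (a' g) = a' g := by
    intro g s hs
    have h1 : s * g = g * (g⁻¹ * s * g) := by group
    have h2 : g⁻¹ * s * g ∈ χ.ker := by
      have := (inferInstance : χ.ker.Normal).conj_mem s hs g⁻¹
      simpa using this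
    rw [← hl g s hs, h1, hr g _ h2]
  have hone : (1 : ZMod N).val = 1 := by
    have : Fact (1 < N) := ⟨hN⟩
    exact ZMod.val_one N
  have hstep : ∀ i : ℕ, a' (σ ^ (i + 1)) + carry (1 : ZMod N) (i : ZMod N) • y
      = a' σ + ρ σ (a' (σ ^ i)) := by
    intro i
    have := hcyc' σ (σ ^ i)
    rw [chi_pow_of_eq_one hσ, hσ, ← pow_succ'] at this
    simp only [toAdd_ofAdd] at this
    rw [← this]
    abel
  have hcarry0 : ∀ i : ℕ, i + 1 < N → carry (1 : ZMod N) (i : ZMod N) = 0 := by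
    intro i hi
    have h1 := val_add_val (1 : ZMod N) (i : ZMod N)
    have h2 : ((1 : ZMod N) + (i : ZMod N)).val = i + 1 := by
      rw [add_comm, ← Nat.cast_succ, ZMod.val_natCast_of_lt hi]
    rw [hone, ZMod.val_natCast_of_lt (by omega), h2] at h1
    have h3 : N * carry (1 : ZMod N) (i : ZMod N) = 0 := by omega
    exact (Nat.mul_eq_zero.1 h3).resolve_left (NeZero.ne N)
  have hcarry1 : carry (1 : ZMod N) ((N - 1 : ℕ) : ZMod N) = 1 := by
    have h1 := val_add_val (1 : ZMod N) ((N - 1 : ℕ) : ZMod N)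
    have h2 : ((1 : ZMod N) + ((N - 1 : ℕ) : ZMod N)).val = 0 := by
      rw [add_comm, ← Nat.cast_succ, Nat.succ_eq_add_one, Nat.sub_add_cancel hN.le,
        ZMod.natCast_self, ZMod.val_zero]
    rw [hone, ZMod.val_natCast_of_lt (by omega), h2] at h1
    have h3 : N * carry (1 : ZMod N) ((N - 1 : ℕ) : ZMod N) = N * 1 := by omega
    exact Nat.eq_of_mul_eq_mul_left (Nat.pos_of_ne_zero (NeZero.ne N)) h3
  have hA : ∀ i : ℕ, i < N → a' (σ ^ i) = ∑ j ∈ Finset.range i, ρ (σ ^ j) (a' σ) := by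
    intro i
    induction i with
    | zero =>
      intro _
      rw [pow_zero, Finset.sum_range_zero]
      exact h0 1 (one_mem _)
    | succ i ih =>
      intro hi
      have h1 := hstep i
      rw [hcarry0 i hi, zero_smul, add_zero, ih (by omega)] at h1
      rw [h1, Finset.sum_range_succ', map_sum, pow_zero, map_one, Module.End.one_apply, add_comm]
      congr 1
      refine Finset.sum_congr rfl fun j _ => ?_
      rw [← Module.End.mul_apply, ← map_mul, ← pow_succ']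
  refine ⟨a' σ, hfix σ, ?_⟩
  have h1 := hstep (N - 1)
  rw [hcarry1, one_smul, Nat.sub_add_cancel hN.le, h0 _ (pow_N_mem_ker σ), zero_add,
    hA (N - 1) (by omega)] at h1
  rw [h1]
  conv_rhs => rw [← Nat.sub_add_cancel hN.le, Finset.sum_range_succ', pow_zero, map_one,
    Module.End.one_apply, add_comm]
  congr 1
  rw [map_sum]
  refine Finset.sum_congr rfl fun j _ => ?_
  rw [← Module.End.mul_apply, ← map_mul, ← pow_succ']

theorem cyc_mem_B2_iff (hρ : IsSmooth 𝒰 ρ) {χ : G →* Multiplicative (ZMod N)}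
    (hχ : IsSmoothChar 𝒰 χ) {σ : G} (hσ : χ σ = Multiplicative.ofAdd 1)
    (hH1 : Z1 (subLev 𝒰 χ.ker) (resRep χ.ker ρ) ≤ B1 (resRep χ.ker ρ))
    {y : V} (hy : ∀ g, ρ g y = y) :
    cyc χ y ∈ B2 𝒰 ρ ↔
      ∃ z : V, (∀ s ∈ χ.ker, ρ s z = z) ∧ y = ∑ i ∈ Finset.range N, ρ (σ ^ i) z := by
  constructor
  · exact exists_norm_of_cyc_mem_B2 hρ hχ hσ hH1 hy
  · rintro ⟨z, hz, rfl⟩
    exact cyc_mem_B2_of_norm hχ hσ hz

end Fermat.Agent.CFT.Br
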