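import Fermat.Agent.CFT.Br.Cyc
import Fermat.Agent.CFT.Coh.InfRes2

/-!
# WP BR-SPLIT : a class which dies on `G' = ker χ` is a cyclic class `(χ, y)`.
(= inflation-restriction in degree 2 + `H^2` of a cyclic group.)

`χ σ = 1`, `G' = ker χ`, `H^1(G',V) = 0`, `c ∈ Z^2(G,V)`, `c|G' = d a₀`.

PROOF.
1. By `infres2_exact'` (`Coh/InfRes2`) `c` is cohomologous to a cocycle `f` which is inflated from
   `G / G'` (with values in `V^{G'}`).
2. Put `β 0 = - f(1,1)`, `β (n+1) = β n + f(σ^n, σ)`.  The cocycle identity gives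
   `β (i+j) = f(σ^i,σ^j) + σ^i β j + β i`, and `σ^N ∈ G'` gives `β (n + N) = β n + y` with
   `y = β N + f(1,1)`, and `σ^n y = y`.  With `a g = β [χ g]` we get `f + d a = cyc χ y`.
-/

set_option autoImplicit false

namespace Fermat.Agent.CFT.Br

open Fermat.Agent.CFT

variable {k : Type} [CommRing k] {G : Type} [Group G] {V : Type} [AddCommGroup V] [Module k V]
  {𝒰 : Levels G} {ρ : Representation k G V} {N : ℕ} [NeZero N]

namespace Split

lemma val_add_val' (a b : ZMod N) : a.val + b.val = (a + b).val + N * carry a b := by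
  have h := Nat.mod_add_div (a.val + b.val) N
  have h2 : carry a b = (a.val + b.val) / N := by
    unfold carry
    rw [ZMod.val_add]
    have : a.val + b.val - (a.val + b.val) % N = N * ((a.val + b.val) / N) := by omega
    rw [this, Nat.mul_div_cancel_left _ (Nat.pos_of_ne_zero (NeZero.ne N))]
  rw [h2, ZMod.val_add, h]

/-- the normalising cochain on the powers of `σ` -/
def beta (f : G × G → V) (σ : G) : ℕ → V
  | 0 => - f (1, 1)
  | n + 1 => beta f σ n + f (σ ^ n, σ)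

lemma beta_add {f : G × G → V} (hf : d23 ρ f = 0) (σ : G) (i j : ℕ) :
    beta f σ (i + j) = f (σ ^ i, σ ^ j) + ρ (σ ^ i) (beta f σ j) + beta f σ i := by
  induction j with
  | zero =>
    simp only [add_zero, pow_zero, beta, map_neg]
    rw [coc2_one_right hf]
    abel
  | succ j ih =>
    have K := coc2 hf (σ ^ i) (σ ^ j) σ
    rw [← pow_add, ← pow_succ] at K
    rw [← add_assoc]
    simp only [beta, map_add]
    rw [ih]
    linear_combination (norm := abel) -K

lemma beta_fixed {S : Subgroup G} {f : G × G → V} (hinf : IsInfl S ρ f) (σ : G) (n : ℕ) :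
    ∀ s ∈ S, ρ s (beta f σ n) = beta f σ n := by
  intro s hs
  induction n with
  | zero => simp only [beta, map_neg, hinf.2 1 1 s hs]
  | succ n ih => simp only [beta, map_add, ih, hinf.2 _ _ s hs]

end Split

open Split in
/-- `H^2` of a cyclic quotient: an inflated cocycle is cohomologous to a cyclic cocycle. -/
theorem exists_cyc_of_isInfl {χ : G →* Multiplicative (ZMod N)}
    (hχ : IsSmoothChar 𝒰 χ) {σ : G} (hσ : χ σ = Multiplicative.ofAdd 1)
    {f : G × G → V} (hf : d23 ρ f = 0) (hinf : IsInfl χ.ker ρ f) :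
    ∃ y : V, (∀ g, ρ g y = y) ∧ f - cyc χ y ∈ B2 𝒰 ρ := by
  set β := beta f σ with hβ
  have hχpow : ∀ n : ℕ, χ (σ ^ n) = Multiplicative.ofAdd (n : ZMod N) := by
    intro n
    rw [map_pow, hσ, ← ofAdd_nsmul, nsmul_eq_mul, mul_one]
  have hσN : σ ^ N ∈ χ.ker := by
    rw [MonoidHom.mem_ker, hχpow, ZMod.natCast_self]; rfl
  -- decomposition of the elements of `G`
  have hdec : ∀ g : G, ∃ s ∈ χ.ker, g = σ ^ (χ g).toAdd.val * s := by
    intro g
    refine ⟨(σ ^ (χ g).toAdd.val)⁻¹ * g, ?_, by group⟩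
    rw [MonoidHom.mem_ker, map_mul, map_inv, hχpow, ZMod.natCast_zmod_val]
    simp
  have hfix := beta_fixed (ρ := ρ) hinf σ
  set y : V := β N + f (1, 1) with hy
  have hyS : ∀ s ∈ χ.ker, ρ s y = y := fun s hs => by
    rw [hy, map_add, hfix N s hs, hinf.2 1 1 s hs]
  have h1 : ∀ n, β (N + n) = β n + y := by
    intro n
    have e := hinf.1 1 (σ ^ n) (σ ^ N) 1 hσN (Subgroup.one_mem _)
    rw [one_mul, mul_one] at e
    rw [hβ, beta_add hf, e, coc2_one_left hf, hfix n _ hσN, hy]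
    abel
  have h2 : ∀ n, β (n + N) = β n + ρ (σ ^ n) y := by
    intro n
    have e := hinf.1 (σ ^ n) 1 1 (σ ^ N) (Subgroup.one_mem _) hσN
    rw [one_mul, mul_one] at e
    rw [hβ, beta_add hf, e, coc2_one_right hf, hy, map_add]
    abel
  have hyσ : ∀ n, ρ (σ ^ n) y = y := by
    intro n
    have e1 := h1 n
    rw [add_comm, h2 n] at e1
    exact add_left_cancel e1
  have hyG : ∀ g, ρ g y = y := by
    intro g
    obtain ⟨s, hs, e⟩ := hdec g
    rw [e, map_mul, Module.End.mul_apply, hyS s hs, hyσ]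
  have h3 : ∀ n m : ℕ, β (n + N * m) = β n + m • y := by
    intro n m
    induction m with
    | zero => simp
    | succ m ih =>
      rw [Nat.mul_succ, ← add_assoc, h2, ih, hyσ, succ_nsmul, add_assoc]
  refine ⟨y, hyG, ?_⟩
  let a : G → V := fun g => β (χ g).toAdd.val
  have ha : a ∈ C1 k V 𝒰 := by
    obtain ⟨U, hU, hUχ⟩ := hχ
    refine ⟨U, hU, fun g s hs => ?_⟩
    simp only [a, map_mul, hUχ s hs, mul_one]
  have key : f - cyc χ y = d12 ρ (-a) := by
    funext ⟨g, h⟩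
    obtain ⟨s, hs, eg⟩ := hdec g
    obtain ⟨s', hs', eh⟩ := hdec h
    set i := (χ g).toAdd.val with hi
    set j := (χ h).toAdd.val with hj
    have e1 : f (g, h) = f (σ ^ i, σ ^ j) := by
      rw [eg, eh]; exact hinf.1 _ _ _ _ hs hs'
    have e2 : ρ g (β j) = ρ (σ ^ i) (β j) := by
      rw [eg, map_mul, Module.End.mul_apply, hfix j s hs]
    have e3 : i + j = (χ (g * h)).toAdd.val + N * carry (χ g).toAdd (χ h).toAdd := by
      rw [map_mul, toAdd_mul]; exact val_add_val' _ _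
    have e4 := beta_add hf σ i j
    rw [e3, ← hβ, h3] at e4
    simp only [Pi.sub_apply, d12_apply, Pi.neg_apply, map_neg, cyc, a]
    rw [e1, e2]
    linear_combination (norm := abel) -e4
  rw [key]
  exact ⟨-a, (C1 k V 𝒰).neg_mem ha, rfl⟩

theorem exists_cyc_of_res_mem_B2 (hρ : IsSmooth 𝒰 ρ) {χ : G →* Multiplicative (ZMod N)}
    (hχ : IsSmoothChar 𝒰 χ) {σ : G} (hσ : χ σ = Multiplicative.ofAdd 1)
    (hH1 : Z1 (subLev 𝒰 χ.ker) (resRep χ.ker ρ) ≤ B1 (resRep χ.ker ρ))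
    {c : G × G → V} (hc : c ∈ Z2 𝒰 ρ)
    (hres : res2 χ.ker c ∈ B2 (subLev 𝒰 χ.ker) (resRep χ.ker ρ)) :
    ∃ y : V, (∀ g, ρ g y = y) ∧ c - cyc χ y ∈ B2 𝒰 ρ := by
  have hS : ∃ U ∈ 𝒰.carrier, U ≤ χ.ker := by
    obtain ⟨U, hU, h⟩ := hχ
    exact ⟨U, hU, fun s hs => MonoidHom.mem_ker.2 (h s hs)⟩
  obtain ⟨f, hf, hinf, hcf⟩ := infres2_exact' (S := χ.ker) hS hρ hH1 hc hres
  obtain ⟨y, hy, hfy⟩ := exists_cyc_of_isInfl (𝒰 := 𝒰) hχ hσ hf.1 hinf
  refine ⟨y, hy, ?_⟩
  have : c - cyc χ y = (c - f) + (f - cyc χ y) := by abel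
  rw [this]
  exact (B2 𝒰 ρ).add_mem hcf hfy

end Fermat.Agent.CFT.Br
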